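import Fermat.Agent.S48.M.Eis.SL
import Fermat.Agent.S48.Z.Fam
import Fermat.Agent.S28.Members

/-!
# S48 / layer M / EIS : keys AL + COEFF (helper18): the functions `y_v = M⁴ QE M v E₄²/Δ` in `S28.AL n`

The two analytic inputs (`hasSum_QE`, `isIntegral_qeC` of `IfEis.lean`) are hypotheses `hS`, `hI`.
-/

set_option autoImplicit false
set_option linter.unusedSectionVars false

open UpperHalfPlane ModularForm ModularFormClass WithZero ModularCurve AlgebraicCurve CongruenceSubgroup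
open Fermat.Agent.S24 Fermat.Agent.S29 Fermat.Agent.S28
open scoped MatrixGroups Manifold Real

noncomputable section

namespace Fermat.Agent.S48.M

namespace EisAL

variable (M : ℕ) [NeZero M]

/-- the function `y_v` -/
def yF (v : Fin 2 → ZMod M) (τ : ℍ) : ℂ :=
  if v = 0 then 0 else (M : ℂ) ^ 4 * QE M v τ * E₄ τ ^ 2 / discriminant τ

theorem mdiff_yF (v : Fin 2 → ZMod M) : MDiff (yF M v) := by
  by_cases hv : v = 0
  · have : yF M v = fun _ => 0 := by funext τ; simp [yF, hv]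
    rw [this]
    exact mdifferentiable_const
  · have h4 : MDiff (E₄ : ℍ → ℂ) := E₄.holo'
    have hd : MDiff (discriminant : ℍ → ℂ) := CuspForm.discriminant.holo'
    have hq : MDiff (QE M v) := EisSL.mdiff_QE M v
    have e : yF M v = fun τ => (M : ℂ) ^ 4 * QE M v τ * E₄ τ ^ 2 / discriminant τ := by
      funext τ; simp [yF, hv]
    rw [e]
    rw [UpperHalfPlane.mdifferentiable_iff] at h4 hd hq ⊢
    have : ((fun τ : ℍ => (M : ℂ) ^ 4 * QE M v τ * E₄ τ ^ 2 / discriminant τ) ∘ ofComplex)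
        = fun z => (M : ℂ) ^ 4 * (QE M v ∘ ofComplex) z * ((E₄ : ℍ → ℂ) ∘ ofComplex) z ^ 2 /
          ((discriminant : ℍ → ℂ) ∘ ofComplex) z := rfl
    rw [this]
    exact (((hq.const_mul _).mul (h4.pow 2))).div hd (fun z _ => discriminant_ne_zero _)

theorem vg_eq_zero_iff (v : Fin 2 → ZMod M) (g : SL(2, ℤ)) : vg M v g = 0 ↔ v = 0 := by
  constructor
  · intro h
    have := congrArg (fun w => vg M w g⁻¹) h
    simp only [← EisSL.vg_mul, mul_inv_cancel, EisSL.vg_one] at this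
    rw [this]
    simp [vg]
  · rintro rfl
    simp [vg]

theorem yF_smul (v : Fin 2 → ZMod M) (g : SL(2, ℤ)) (τ : ℍ) :
    yF M v (g • τ) = yF M (vg M v g) τ := by
  by_cases hv : v = 0
  · have hv' : vg M v g = 0 := (vg_eq_zero_iff M v g).2 hv
    rw [yF, yF, if_pos hv, if_pos hv']
  · have hv' : vg M v g ≠ 0 := fun h => hv ((vg_eq_zero_iff M v g).1 h)
    rw [yF, yF, if_neg hv, if_neg hv']
    have e4 := congrFun (JFun.slash_eq_self E₄ g) τ
    have eΔ : ((discriminant : ℍ → ℂ) ∣[(12 : ℤ)] g) τ = discriminant τ := by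
      have hγ : (g : GL (Fin 2) ℝ) ∈ 𝒮ℒ := ⟨g, rfl⟩
      have := SlashInvariantForm.slash_action_eqn CuspForm.discriminant _ hγ
      rw [SL_slash]
      exact congrFun this τ
    have eQ := congrFun (EisSL.QE_slash M v g) τ
    rw [SL_slash_apply] at e4 eΔ eQ
    have hd : denom g τ ≠ 0 := denom_ne_zero g τ
    obtain ⟨d, hd_def⟩ : ∃ d, d = denom g τ := ⟨_, rfl⟩
    rw [← hd_def] at e4 eΔ eQ hd
    have h4 : E₄ (g • τ) = E₄ τ * d ^ 4 := by
      rw [← e4, mul_assoc, ← zpow_natCast d 4, ← zpow_add₀ hd]; simp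
    have h12 : discriminant (g • τ) = discriminant τ * d ^ 12 := by
      rw [← eΔ, mul_assoc, ← zpow_natCast d 12, ← zpow_add₀ hd]; simp
    have hQ : QE M v (g • τ) = QE M (vg M v g) τ * d ^ 4 := by
      rw [← eQ, mul_assoc, ← zpow_natCast d 4, ← zpow_add₀ hd]; simp
    rw [h4, h12, hQ]
    have h0 := discriminant_ne_zero τ
    field_simp

/-- `y_v` as a holomorphic function -/
def yH (v : Fin 2 → ZMod M) : Hol := ⟨yF M v, mdiff_yF M v⟩

theorem holAct_yH (g : SL(2, ℤ)) (v : Fin 2 → ZMod M) : holAct g (yH M v) = yH M (vg M v g⁻¹) :=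
  Subtype.ext (funext fun τ => yF_smul M v g⁻¹ τ)

theorem vg_of_mem_Gamma {n : ℕ} (hMn : M ∣ n) (v : Fin 2 → ZMod M) {g : SL(2, ℤ)}
    (hg : g ∈ CongruenceSubgroup.Gamma n) : vg M v g = v := by
  rw [Gamma_mem] at hg
  have key : ∀ a b : ℤ, ((a : ℤ) : ZMod n) = ((b : ℤ) : ZMod n) → ((a : ℤ) : ZMod M) = ((b : ℤ) : ZMod M) := by
    intro a b h
    rw [ZMod.intCast_eq_intCast_iff_dvd_sub] at h ⊢
    exact (Int.natCast_dvd_natCast.2 hMn).trans h
  have h00 : ((g 0 0 : ℤ) : ZMod M) = 1 := by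
    have := key (g 0 0) 1 (by rw [hg.1]; simp)
    simpa using this
  have h01 : ((g 0 1 : ℤ) : ZMod M) = 0 := by
    have := key (g 0 1) 0 (by rw [hg.2.1]; simp)
    simpa using this
  have h10 : ((g 1 0 : ℤ) : ZMod M) = 0 := by
    have := key (g 1 0) 0 (by rw [hg.2.2.1]; simp)
    simpa using this
  have h11 : ((g 1 1 : ℤ) : ZMod M) = 1 := by
    have := key (g 1 1) 1 (by rw [hg.2.2.2]; simp)
    simpa using this
  rw [EisSL.vg_apply, h00, h01, h10, h11]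
  funext i
  fin_cases i <;> simp

/-! ### expansions -/

theorem rel_w : Rel 1 (fun τ : ℍ => E₄ τ ^ 2 / discriminant τ)
    (HahnSeries.single (-1 : ℤ) 1 * HahnSeries.ofPowerSeries ℤ Zb
      ((eisenstein4 ^ 2 * dedekindEtaUnitInv).map (Int.castRingHom Zb))) := by
  have e : ((fun τ : ℍ => E₄ τ ^ 2 / discriminant τ) ∘ scaleH 1) * qq ^ 1 =
      (E₄ : ℍ → ℂ) ^ 2 * RelAff.qDivΔ := by
    rw [comp_scaleH_one, pow_one]
    ext τ
    show E₄ τ ^ 2 / discriminant τ * RelAff.qf τ = E₄ τ ^ 2 * ((discriminant τ)⁻¹ * RelAff.qf τ)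
    rw [div_eq_mul_inv, mul_assoc]
  have h4 : IsQ (E₄ : ℍ → ℂ) := isQ_of_modularForm E₄
  have h42 : IsQ ((E₄ : ℍ → ℂ) ^ 2) := by
    rw [pow_succ, pow_one]; exact h4.mul h4
  have q42 : qExpansion 1 ((E₄ : ℍ → ℂ) ^ 2) = (eisenstein4 ^ 2).map (Int.castRingHom ℂ) := by
    rw [pow_succ, pow_one, qExpansion_mul h4.analytic h4.analytic, qExpansion_E₄, map_pow]
    ring
  refine ⟨1, (eisenstein4 ^ 2 * dedekindEtaUnitInv).map (Int.castRingHom Zb), ?_, ?_, by simp⟩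
  · rw [e]; exact h42.mul RelAff.isQ_qDivΔ
  · rw [e, qExpansion_mul h42.analytic RelAff.isQ_qDivΔ.analytic, q42, RelAff.qExpansion_qDivΔ,
      map_map_int, map_mul]

/-- `E₄²/Δ` at level `n` -/
theorem rel_w_level (n : ℕ) [NeZero n] : ∃ s : LaurentSeries Zb,
    Rel n (fun τ : ℍ => E₄ τ ^ 2 / discriminant τ) s ∧ s.coeff (-(n : ℤ)) = 1 ∧
      (∀ k : ℤ, k < -(n : ℤ) → s.coeff k = 0) ∧ ∀ k : ℤ, ¬ (n : ℤ) ∣ k → s.coeff k = 0 := by
  obtain ⟨s, hs, h1, h2⟩ := Rel.affine (N := n) rel_w 1 1 0 one_pos one_pos n (by ring)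
  rw [MemAux.aff_id] at hs
  refine ⟨s, hs, ?_, fun k hk => ?_, h2⟩
  · apply Subtype.ext
    have := h1 (-1)
    rw [mul_neg_one] at this
    rw [this, HahnSeries.coeff_single_mul]
    have hc : PowerSeries.constantCoeff (eisenstein4 ^ 2 * dedekindEtaUnitInv) = 1 := by
      rw [map_mul, map_pow, constantCoeff_dedekindEtaUnitInv, constantCoeff_eisenstein4]
      norm_num
    rw [show (-1 : ℤ) - -1 = 0 by norm_num, MemAux.coeff_zero_ofPS _ hc]
    simp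
  · by_cases hd : (n : ℤ) ∣ k
    · obtain ⟨m, rfl⟩ := hd
      have hN : (0 : ℤ) < n := by exact_mod_cast Nat.pos_of_ne_zero (NeZero.ne n)
      have hn : m < -1 := by nlinarith
      apply Subtype.ext
      rw [h1 m, HahnSeries.coeff_single_mul, ofPowerSeries_coeff_of_neg _ (by omega)]
      simp
    · exact h2 k hd

/-- a coefficient computation for products of Laurent series -/
theorem coeff_mul_aux {R : Type*} [CommRing R] (s₁ s₂ : LaurentSeries R) (n : ℕ) (hn : 0 < n)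
    (h₁ : ∀ i : ℤ, i < 0 → s₁.coeff i = 0) (h₂ : s₂.coeff (-(n : ℤ)) = 1)
    (h₂' : ∀ k : ℤ, k < -(n : ℤ) → s₂.coeff k = 0) (h₂'' : ∀ k : ℤ, ¬ (n : ℤ) ∣ k → s₂.coeff k = 0) :
    (∀ i : ℤ, i < -(n : ℤ) → (s₁ * s₂).coeff i = 0) ∧
      ∀ i : ℤ, 0 ≤ i → i < n → (s₁ * s₂).coeff (-(n : ℤ) + i) = s₁.coeff i := by
  have hs1 : ∀ a : ℤ, a ∈ s₁.support → 0 ≤ a := by
    intro a ha
    by_contra h
    exact ha (h₁ a (not_le.1 h))
  have hs2 : ∀ b : ℤ, b ∈ s₂.support → -(n : ℤ) ≤ b := by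
    intro b hb
    by_contra h
    exact hb (h₂' b (not_le.1 h))
  have hs2' : ∀ b : ℤ, b ∈ s₂.support → (n : ℤ) ∣ b := by
    intro b hb
    by_contra h
    exact hb (h₂'' b h)
  constructor
  · intro i hi
    rw [HahnSeries.coeff_mul]
    refine Finset.sum_eq_zero fun x hx => ?_
    rw [Finset.mem_antidiagonal] at hx
    have := hs1 _ hx.1
    have := hs2 _ hx.2.1
    omega
  · intro i hi0 hin
    rw [HahnSeries.coeff_mul, Finset.sum_eq_single (i, -(n : ℤ))]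
    · rw [h₂, mul_one]
    · rintro ⟨a, b⟩ hx hne
      rw [Finset.mem_antidiagonal] at hx
      exfalso
      have h1 := hs1 _ hx.1
      have h2 := hs2 _ hx.2.1
      obtain ⟨c, hc⟩ := hs2' _ hx.2.1
      have h3 := hx.2.2
      simp only at h1 h2 hc h3
      have hn' : (0 : ℤ) < n := by exact_mod_cast hn
      have hc1 : -1 ≤ c := by
        by_contra h
        have : c ≤ -2 := by omega
        nlinarith
      rcases eq_or_lt_of_le hc1 with h | h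
      · apply hne
        have hb : b = -(n : ℤ) := by rw [hc, ← h]; ring
        have ha : a = i := by omega
        rw [ha, hb]
      · have : 0 ≤ c := by omega
        have : 0 ≤ b := by rw [hc]; positivity
        omega
    · intro hx
      rw [Finset.mem_antidiagonal] at hx
      by_cases h : s₁.coeff i = 0
      · rw [h, zero_mul]
      · exfalso
        apply hx
        refine ⟨h, ?_, by ring⟩
        show s₂.coeff (-(n : ℤ)) ≠ 0
        intro h0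
        rw [h₂] at h0
        apply h
        have : (1 : R) * s₁.coeff i = 0 := by rw [h0, zero_mul]
        rwa [one_mul] at this

section QE

variable (hS : ∀ (v : Fin 2 → ZMod M) (τ : ℍ),
    HasSum (fun n : ℕ => qeC M v n * Complex.exp (2 * π * Complex.I * τ / M) ^ n) (QE M v τ))
  (hI : ∀ v : Fin 2 → ZMod M, v ≠ 0 → ∀ n : ℕ, IsIntegral ℤ ((M : ℂ) ^ 4 * qeC M v n))

/-- the power series of `M⁴ QE M v` in `q_M` -/
def pQ (v : Fin 2 → ZMod M) (hv : v ≠ 0) : PowerSeries Zb :=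
  PowerSeries.mk fun k => ⟨(M : ℂ) ^ 4 * qeC M v k, hI v hv k⟩

include hS in
theorem hasSum_scale (v : Fin 2 → ZMod M) (τ : ℍ) :
    HasSum (fun k : ℕ => ((M : ℂ) ^ 4 * qeC M v k) • Function.Periodic.qParam (1 : ℝ) (τ : ℂ) ^ k)
      (((fun τ : ℍ => (M : ℂ) ^ 4 * QE M v τ) ∘ scaleH M) τ) := by
  have h := (hS v (scaleH M τ)).mul_left ((M : ℂ) ^ 4)
  have hM : (M : ℂ) ≠ 0 := by exact_mod_cast NeZero.ne M
  have e : Complex.exp (2 * π * Complex.I * ((scaleH M τ : ℍ) : ℂ) / M) =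
      Function.Periodic.qParam (1 : ℝ) (τ : ℂ) := by
    unfold Function.Periodic.qParam
    congr 1
    rw [coe_scaleH]
    push_cast
    field_simp
  rw [e] at h
  refine h.congr_fun ?_ |>.congr_fun fun _ => rfl
  intro k
  rw [smul_eq_mul, mul_assoc]

include hS in
theorem rel_QE (v : Fin 2 → ZMod M) (hv : v ≠ 0) :
    Rel M (fun τ : ℍ => (M : ℂ) ^ 4 * QE M v τ) (HahnSeries.ofPowerSeries ℤ Zb (pQ M hI v hv)) := by
  have e : ((fun τ : ℍ => (M : ℂ) ^ 4 * QE M v τ) ∘ scaleH M) * qq ^ 0 =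
      (fun τ : ℍ => (M : ℂ) ^ 4 * QE M v τ) ∘ scaleH M := by
    rw [pow_zero, mul_one]
  refine ⟨0, pQ M hI v hv, ?_, ?_, by simp⟩
  · rw [e]; exact Z.isQ_of_hasSum (hasSum_scale M hS v)
  · rw [e]
    ext k
    have := Z.coeffFun_of_hasSum (hasSum_scale M hS v) k
    rw [PowerSeries.coeff_map, pQ, PowerSeries.coeff_mk]
    exact this

include hS hI in
/-- `M⁴ QE M v` at level `n` -/
theorem rel_QE_level (n : ℕ) [NeZero n] (hMn : M ∣ n) (v : Fin 2 → ZMod M) (hv : v ≠ 0) :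
    ∃ s : LaurentSeries Zb, Rel n (fun τ : ℍ => (M : ℂ) ^ 4 * QE M v τ) s ∧
      (∀ i : ℤ, i < 0 → s.coeff i = 0) ∧
      ∀ m : ℕ, ((s.coeff (((n / M : ℕ) : ℤ) * m) : Zb) : ℂ) = (M : ℂ) ^ 4 * qeC M v m := by
  obtain ⟨s, hs, h1, h2⟩ := Rel.affine (N := n) (rel_QE M hS hI v hv) 1 1 0 one_pos one_pos (n / M)
    (by rw [one_mul, one_mul, Nat.div_mul_cancel hMn])
  rw [MemAux.aff_id] at hs
  have hA : (0 : ℤ) < ((n / M : ℕ) : ℤ) := by
    have : 0 < n / M := Nat.div_pos (Nat.le_of_dvd (Nat.pos_of_ne_zero (NeZero.ne n)) hMn)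
      (Nat.pos_of_ne_zero (NeZero.ne M))
    exact_mod_cast this
  refine ⟨s, hs, fun i hi => ?_, fun m => ?_⟩
  · by_cases hd : ((n / M : ℕ) : ℤ) ∣ i
    · obtain ⟨k, rfl⟩ := hd
      have hk : k < 0 := by
        by_contra h
        have : 0 ≤ ((n / M : ℕ) : ℤ) * k := mul_nonneg hA.le (not_lt.1 h)
        omega
      apply Subtype.ext
      rw [h1 k, ofPowerSeries_coeff_of_neg _ hk]
      simp
    · exact h2 i hd
  · rw [h1 m, HahnSeries.ofPowerSeries_apply_coeff, pQ, PowerSeries.coeff_mk]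
    simp

include hS hI in
theorem exists_rel_yF (n : ℕ) [NeZero n] (hMn : M ∣ n) (v : Fin 2 → ZMod M) (hv : v ≠ 0) :
    ∃ s : LaurentSeries Zb, Rel n (yF M v) s ∧ (∀ i : ℤ, i < -(n : ℤ) → s.coeff i = 0) ∧
      ∀ m : ℕ, m < M → ((s.coeff (-(n : ℤ) + ((n / M : ℕ) : ℤ) * m) : Zb) : ℂ) =
        (M : ℂ) ^ 4 * qeC M v m := by
  obtain ⟨s₁, hs₁, h10, h11⟩ := rel_QE_level M hS hI n hMn v hv
  obtain ⟨s₂, hs₂, h20, h21, h22⟩ := rel_w_level n
  have hn : 0 < n := Nat.pos_of_ne_zero (NeZero.ne n)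
  obtain ⟨k1, k2⟩ := coeff_mul_aux s₁ s₂ n hn h10 h20 h21 h22
  have e : yF M v = (fun τ : ℍ => (M : ℂ) ^ 4 * QE M v τ) * fun τ : ℍ => E₄ τ ^ 2 / discriminant τ := by
    funext τ
    rw [yF, if_neg hv, Pi.mul_apply]
    ring
  refine ⟨s₁ * s₂, e ▸ hs₁.mul hs₂, k1, fun m hm => ?_⟩
  rw [k2 _ (by positivity) ?_, h11]
  have h1 : (n / M) * m < (n / M) * M :=
    Nat.mul_lt_mul_of_pos_left hm (Nat.div_pos (Nat.le_of_dvd hn hMn) (Nat.pos_of_ne_zero (NeZero.ne M)))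
  rw [Nat.div_mul_cancel hMn] at h1
  exact_mod_cast h1

include hS hI in
theorem exists_rel_yF' (n : ℕ) [NeZero n] (hMn : M ∣ n) (v : Fin 2 → ZMod M) :
    ∃ s : LaurentSeries Zb, Rel n (yF M v) s ∧ ∀ i : ℤ, i < -(n : ℤ) → s.coeff i = 0 := by
  by_cases hv : v = 0
  · refine ⟨HahnSeries.C 0, ?_, fun i _ => by simp⟩
    have : yF M v = 0 := by funext τ; rw [yF, if_pos hv]; rfl
    rw [this]
    exact rel_zero n
  · obtain ⟨s, hs, h, -⟩ := exists_rel_yF M hS hI n hMn v hv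
    exact ⟨s, hs, h⟩

include hS hI in
theorem yH_mem_AL (n : ℕ) [NeZero n] (hMn : M ∣ n) (v : Fin 2 → ZMod M) : yH M v ∈ AL n := by
  refine ⟨fun γ hγ => ?_, fun g => ?_⟩
  · rw [holAct_yH, vg_of_mem_Gamma M hMn v ((CongruenceSubgroup.Gamma n).inv_mem hγ)]
  · rw [holAct_yH]
    obtain ⟨s, hs, -⟩ := exists_rel_yF' M hS hI n hMn (vg M v g⁻¹)
    exact ⟨s, hs⟩

include hS hI in
theorem exists_yA (n : ℕ) [NeZero n] (hMn : M ∣ n) (v : Fin 2 → ZMod M) :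
    ∃ f : AL n, ∀ τ : ℍ, (f.1 : ℍ → ℂ) τ =
      if v = 0 then 0 else (M : ℂ) ^ 4 * QE M v τ * E₄ τ ^ 2 / discriminant τ :=
  ⟨⟨yH M v, yH_mem_AL M hS hI n hMn v⟩, fun _ => rfl⟩

end QE

theorem smul_eq (n : ℕ) [NeZero n] (g : SL(2, ℤ)) (v : Fin 2 → ZMod M) (f f' : AL n)
    (hf : ∀ τ : ℍ, (f.1 : ℍ → ℂ) τ = yF M v τ)
    (hf' : ∀ τ : ℍ, (f'.1 : ℍ → ℂ) τ = yF M (vg M v g⁻¹) τ) : g • f = f' := by
  apply Subtype.ext
  apply Subtype.ext
  funext τ
  show (f.1 : ℍ → ℂ) (g⁻¹ • τ) = (f'.1 : ℍ → ℂ) τ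
  rw [hf, hf', yF_smul]

section QE2

variable (hS : ∀ (v : Fin 2 → ZMod M) (τ : ℍ),
    HasSum (fun n : ℕ => qeC M v n * Complex.exp (2 * π * Complex.I * τ / M) ^ n) (QE M v τ))
  (hI : ∀ v : Fin 2 → ZMod M, v ≠ 0 → ∀ n : ℕ, IsIntegral ℤ ((M : ℂ) ^ 4 * qeC M v n))

include hS hI in
theorem coeff_eps_of_lt (n : ℕ) [NeZero n] (hMn : M ∣ n) (v : Fin 2 → ZMod M) (f : AL n)
    (hf : ∀ τ : ℍ, (f.1 : ℍ → ℂ) τ = yF M v τ) (i : ℤ) (hi : i < -(n : ℤ)) :
    (eps n f).coeff i = 0 := by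
  obtain ⟨s, hs, h⟩ := exists_rel_yF' M hS hI n hMn v
  have e : (f.1 : ℍ → ℂ) = yF M v := funext hf
  rw [eps_eq n (f := f) (e ▸ hs)]
  exact h i hi

include hS hI in
theorem coeff_eps (n : ℕ) [NeZero n] (hMn : M ∣ n) (v : Fin 2 → ZMod M) (hv : v ≠ 0) (f : AL n)
    (hf : ∀ τ : ℍ, (f.1 : ℍ → ℂ) τ = yF M v τ) (m : ℕ) (hm : m < M) :
    (((eps n f).coeff (-(n : ℤ) + ((n / M : ℕ) : ℤ) * m) : Zb) : ℂ) = (M : ℂ) ^ 4 * qeC M v m := by
  obtain ⟨s, hs, -, h⟩ := exists_rel_yF M hS hI n hMn v hv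
  have e : (f.1 : ℍ → ℂ) = yF M v := funext hf
  rw [eps_eq n (f := f) (e ▸ hs)]
  exact h m hm

end QE2

end EisAL

end Fermat.Agent.S48.M
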