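import Fermat.Agent.S48.M.Eis.Zpw

/-!
# S48 / M / Eis / Const : the constant terms of the `QE M (0,a)`   [key S48/M-EIS-CONST, helper20]

* `sum_zpw_qeC_eq`: `∑_a ζ^{-ab} C_a = M⁴/120 - b²(M-b)²/4`  (`C_a = qeC M ![0,a] 0`, Mathlib `hasSum_one_div_nat_pow_mul_cos`, `B₄`).
* `mul_qeC_zero`: Fourier inversion.
* `isIntegral_qeC'`: `M⁴ qeC M v n` is an algebraic integer for `v ≠ 0`.
-/

set_option autoImplicit false

open scoped Real

noncomputable section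

namespace Fermat.Agent.S48.M

theorem bernoulli4_eval (x : ℝ) :
    (Polynomial.map (algebraMap ℚ ℝ) (Polynomial.bernoulli 4)).eval x =
      x ^ 2 * (1 - x) ^ 2 - 1 / 30 := by
  have h3 : bernoulli 3 = 0 := by
    rw [bernoulli_eq_bernoulli'_of_ne_one (by norm_num), bernoulli'_three]
  have h4 : bernoulli 4 = -1 / 30 := by
    rw [bernoulli_eq_bernoulli'_of_ne_one (by norm_num), bernoulli'_four]
  rw [Polynomial.bernoulli]
  simp only [Finset.sum_range_succ, Finset.range_zero, Finset.sum_empty, bernoulli_zero, bernoulli_one,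
    bernoulli_two, h3, h4, Polynomial.map_add, Polynomial.map_monomial, Polynomial.eval_add,
    Polynomial.eval_monomial]
  norm_num [Nat.choose]
  ring

theorem hasSum_cos4 {x : ℝ} (hx : x ∈ Set.Icc (0 : ℝ) 1) :
    HasSum (fun n : ℕ => 1 / (n : ℝ) ^ 4 * Real.cos (2 * π * n * x))
      (-(π ^ 4 / 3) * (x ^ 2 * (1 - x) ^ 2 - 1 / 30)) := by
  have h := hasSum_one_div_nat_pow_mul_cos (k := 2) two_ne_zero hx
  rw [show 2 * 2 = 4 from rfl, bernoulli4_eval] at h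
  convert h using 1
  norm_num [Nat.factorial]
  ring

variable (M : ℕ) [NeZero M]

theorem qeC_zero (a : ZMod M) : qeC M ![0, a] 0 =
    cQE M * ∑' x : ℤ, (if (x : ZMod M) = a then ((x : ℂ) ^ 4)⁻¹ else 0) := by
  simp [qeC]

theorem summable_inv4 : Summable (fun x : ℤ => ((x : ℂ) ^ 4)⁻¹) := by
  have h : Summable (fun x : ℤ => 1 / (x : ℝ) ^ 4) :=
    (Real.summable_one_div_int_pow (p := 4)).mpr (by norm_num)
  refine Summable.of_norm ?_
  refine h.congr fun x => ?_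
  rw [norm_inv, norm_pow, Complex.norm_intCast, one_div]
  congr 1
  rw [← abs_pow]
  exact (abs_of_nonneg (by positivity)).symm

theorem summable_zpw_inv4 (c : ℤ → ℂ) (hc : ∀ x, ‖c x‖ ≤ 1) :
    Summable (fun x : ℤ => c x * ((x : ℂ) ^ 4)⁻¹) := by
  refine Summable.of_norm_bounded (summable_inv4.norm) fun x => ?_
  rw [norm_mul]
  exact mul_le_of_le_one_left (norm_nonneg _) (hc x)

theorem sum_zpw_qeC (b : ZMod M) : ∑ a : ZMod M, zpw M (-(a * b)) * qeC M ![0, a] 0 =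
    cQE M * ∑' x : ℤ, zpw M (-((x : ZMod M) * b)) * ((x : ℂ) ^ 4)⁻¹ := by
  have hs : ∀ a : ZMod M, Summable (fun x : ℤ =>
      zpw M (-(a * b)) * (if (x : ZMod M) = a then ((x : ℂ) ^ 4)⁻¹ else 0)) := by
    intro a
    refine Summable.mul_left _ ?_
    have := summable_zpw_inv4 (fun x : ℤ => if (x : ZMod M) = a then 1 else 0) (fun x => by
      split_ifs <;> simp)
    refine this.congr fun x => ?_
    split_ifs <;> simp
  simp only [qeC_zero]
  calc ∑ a : ZMod M, zpw M (-(a * b)) *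
        (cQE M * ∑' x : ℤ, (if (x : ZMod M) = a then ((x : ℂ) ^ 4)⁻¹ else 0))
      = cQE M * ∑ a : ZMod M, ∑' x : ℤ,
          zpw M (-(a * b)) * (if (x : ZMod M) = a then ((x : ℂ) ^ 4)⁻¹ else 0) := by
        rw [Finset.mul_sum]
        refine Finset.sum_congr rfl fun a _ => ?_
        rw [tsum_mul_left]; ring
    _ = cQE M * ∑' x : ℤ, ∑ a : ZMod M,
          zpw M (-(a * b)) * (if (x : ZMod M) = a then ((x : ℂ) ^ 4)⁻¹ else 0) := by
        rw [Summable.tsum_finsetSum fun a _ => hs a]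
    _ = _ := by
        congr 1
        refine tsum_congr fun x => ?_
        simp only [mul_ite, mul_zero]
        rw [Finset.sum_ite_eq]
        simp

theorem cQE_eq : cQE M = 3 * (M : ℂ) ^ 4 / (8 * (π : ℂ) ^ 4) := by
  have hpi : (π : ℂ) ≠ 0 := by exact_mod_cast Real.pi_ne_zero
  rw [cQE, mul_pow, mul_pow, Complex.I_pow_four]
  field_simp
  ring

theorem tsum_zpw_inv4 (b : ZMod M) :
    ∑' x : ℤ, zpw M (-((x : ZMod M) * b)) * ((x : ℂ) ^ 4)⁻¹ =
      2 * (((-(π ^ 4 / 3) * (((b.val : ℝ) / M) ^ 2 * (1 - (b.val : ℝ) / M) ^ 2 - 1 / 30) : ℝ)) : ℂ) := by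
  have hM : (0 : ℝ) < M := by exact_mod_cast Nat.pos_of_ne_zero (NeZero.ne M)
  have hx : ((b.val : ℝ) / M) ∈ Set.Icc (0 : ℝ) 1 := by
    constructor
    · positivity
    · rw [div_le_one hM]
      exact_mod_cast (ZMod.val_lt b).le
  have h1 := hasSum_cos4 hx
  have h2 : HasSum (fun n : ℕ => ((1 / (n : ℝ) ^ 4 * Real.cos (2 * π * n * ((b.val : ℝ) / M)) : ℝ) : ℂ))
      (((-(π ^ 4 / 3) * (((b.val : ℝ) / M) ^ 2 * (1 - (b.val : ℝ) / M) ^ 2 - 1 / 30) : ℝ)) : ℂ) :=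
    Complex.hasSum_ofReal.mpr h1
  have h3 := (summable_zpw_inv4 (fun x : ℤ => zpw M (-((x : ZMod M) * b)))
    (fun x => (norm_zpw M _).le)).hasSum.nat_add_neg
  have h4 := h2.mul_left 2
  have h5 : (fun n : ℕ => zpw M (-((((n : ℕ) : ℤ) : ZMod M) * b)) * ((((n : ℕ) : ℤ) : ℂ) ^ 4)⁻¹ +
      zpw M (-(((-((n : ℕ) : ℤ) : ℤ) : ZMod M) * b)) * (((-((n : ℕ) : ℤ) : ℤ) : ℂ) ^ 4)⁻¹) =
      fun n : ℕ => 2 * ((1 / (n : ℝ) ^ 4 * Real.cos (2 * π * n * ((b.val : ℝ) / M)) : ℝ) : ℂ) := by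
    funext n
    have e1 : -((((n : ℕ) : ℤ) : ZMod M) * b) = (((-((n : ℤ) * (b.val : ℤ)) : ℤ)) : ZMod M) := by
      push_cast; rw [ZMod.natCast_zmod_val]
    have e2 : -(((-((n : ℕ) : ℤ) : ℤ) : ZMod M) * b) = ((((n : ℤ) * (b.val : ℤ) : ℤ)) : ZMod M) := by
      push_cast; rw [ZMod.natCast_zmod_val]; ring
    rw [e1, e2, zpw_intCast, zpw_intCast]
    push_cast
    rw [Complex.cos]
    have hMC : (M : ℂ) ≠ 0 := by exact_mod_cast NeZero.ne M
    have e3 : 2 * (π : ℂ) * Complex.I * -((n : ℂ) * (b.val : ℂ)) / M =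
        -(2 * π * n * ((b.val : ℂ) / M)) * Complex.I := by field_simp
    have e4 : 2 * (π : ℂ) * Complex.I * ((n : ℂ) * (b.val : ℂ)) / M =
        (2 * π * n * ((b.val : ℂ) / M)) * Complex.I := by field_simp
    rw [e3, e4]
    ring
  rw [h5] at h3
  have h6 := h3.unique h4
  simpa using h6

theorem sum_zpw_qeC_eq (b : ZMod M) : ∑ a : ZMod M, zpw M (-(a * b)) * qeC M ![0, a] 0 =
    (M : ℂ) ^ 4 / 120 - (b.val : ℂ) ^ 2 * ((M : ℂ) - b.val) ^ 2 / 4 := by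
  have hpi : (π : ℂ) ≠ 0 := by exact_mod_cast Real.pi_ne_zero
  have hMC : (M : ℂ) ≠ 0 := by exact_mod_cast NeZero.ne M
  rw [sum_zpw_qeC, tsum_zpw_inv4, cQE_eq]
  push_cast
  field_simp
  ring

/-- Fourier inversion -/
theorem mul_qeC_zero (a : ZMod M) : (M : ℂ) * qeC M ![0, a] 0 =
    ∑ b : ZMod M, zpw M (a * b) *
      ((M : ℂ) ^ 4 / 120 - (b.val : ℂ) ^ 2 * ((M : ℂ) - b.val) ^ 2 / 4) := by
  simp only [← sum_zpw_qeC_eq, Finset.mul_sum]
  rw [Finset.sum_comm]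
  have : ∀ a' : ZMod M, ∑ b : ZMod M, zpw M (a * b) * (zpw M (-(a' * b)) * qeC M ![0, a'] 0) =
      (if a - a' = 0 then (M : ℂ) else 0) * qeC M ![0, a'] 0 := by
    intro a'
    rw [← sum_zpw_mul, Finset.sum_mul]
    refine Finset.sum_congr rfl fun b _ => ?_
    rw [← mul_assoc, ← zpw_add]
    congr 2
    ring
  simp only [this, sub_eq_zero, ite_mul, zero_mul]
  rw [Finset.sum_ite_eq]
  simp

theorem four_dvd_aux (m b : ℤ) : (4 : ℤ) ∣ m ^ 3 * (b ^ 2 * (m - b) ^ 2) := by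
  rcases Int.even_or_odd' m with ⟨k, rfl | rfl⟩
  · exact ⟨2 * k ^ 3 * (b ^ 2 * (2 * k - b) ^ 2), by ring⟩
  · rcases Int.even_or_odd' b with ⟨l, rfl | rfl⟩
    · exact ⟨(2 * k + 1) ^ 3 * (l ^ 2 * (2 * k + 1 - 2 * l) ^ 2), by ring⟩
    · exact ⟨(2 * k + 1) ^ 3 * ((2 * l + 1) ^ 2 * (k - l) ^ 2), by ring⟩

theorem isIntegral_qeC_zero (a : ZMod M) (ha : a ≠ 0) :
    IsIntegral ℤ ((M : ℂ) ^ 4 * qeC M ![0, a] 0) := by
  have h1 : (M : ℂ) ^ 4 * qeC M ![0, a] 0 = (M : ℂ) ^ 3 * ((M : ℂ) * qeC M ![0, a] 0) := by ring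
  choose z hz using fun b : ZMod M => four_dvd_aux (M : ℤ) (b.val : ℤ)
  have h2 : (M : ℂ) ^ 3 * ((M : ℂ) * qeC M ![0, a] 0) =
      -∑ b : ZMod M, zpw M (a * b) * ((z b : ℤ) : ℂ) := by
    rw [mul_qeC_zero]
    have h3 : ∀ b : ZMod M, (M : ℂ) ^ 3 * ((b.val : ℂ) ^ 2 * ((M : ℂ) - b.val) ^ 2) = 4 * (z b : ℂ) := by
      intro b
      exact_mod_cast congrArg (Int.cast : ℤ → ℂ) (hz b)
    have h4 : ∑ b : ZMod M, zpw M (a * b) = 0 := by rw [sum_zpw_mul, if_neg ha]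
    have h5 : ∀ b : ZMod M, (M : ℂ) ^ 3 * (zpw M (a * b) *
        ((M : ℂ) ^ 4 / 120 - (b.val : ℂ) ^ 2 * ((M : ℂ) - b.val) ^ 2 / 4)) =
        (M : ℂ) ^ 7 / 120 * zpw M (a * b) - zpw M (a * b) * (z b : ℂ) := by
      intro b
      linear_combination (-(zpw M (a * b)) / 4) * h3 b
    rw [Finset.mul_sum]
    simp only [h5]
    rw [Finset.sum_sub_distrib, ← Finset.mul_sum, h4, mul_zero, zero_sub]
  rw [h1, h2]
  refine IsIntegral.neg ?_
  refine IsIntegral.sum _ fun b _ => ?_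
  exact (isIntegral_zpw M _).mul isIntegral_algebraMap

theorem isIntegral_qeC' (v : Fin 2 → ZMod M) (hv : v ≠ 0) (n : ℕ) :
    IsIntegral ℤ ((M : ℂ) ^ 4 * qeC M v n) := by
  have hnat : ∀ k : ℕ, IsIntegral ℤ (k : ℂ) := fun k => by
    have := isIntegral_algebraMap (R := ℤ) (A := ℂ) (x := (k : ℤ))
    simpa using this
  have hMi : IsIntegral ℤ ((M : ℂ) ^ 4) := (hnat M).pow 4
  by_cases hn : n = 0
  · subst hn
    by_cases h0 : v 0 = 0
    · have h1 : v 1 ≠ 0 := by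
        intro h1
        apply hv
        funext i
        fin_cases i
        · exact h0
        · exact h1
      have e : v = ![0, v 1] := by
        funext i
        fin_cases i
        · exact h0
        · rfl
      rw [e]
      exact isIntegral_qeC_zero M _ h1
    · have : qeC M v 0 = 0 := by simp [qeC, h0]
      rw [this, mul_zero]
      exact isIntegral_zero
  · refine hMi.mul ?_
    rw [qeC, if_neg hn]
    refine IsIntegral.sum _ fun k _ => ?_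
    have hk : IsIntegral ℤ ((k : ℂ) ^ 3) := (hnat k).pow 3
    refine hk.mul (IsIntegral.add ?_ ?_)
    · split_ifs
      · exact isIntegral_zpw M _
      · exact isIntegral_zero
    · split_ifs
      · exact isIntegral_zpw M _
      · exact isIntegral_zero

end Fermat.Agent.S48.M
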