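import Fermat.Agent.S48.M.G0
import Fermat.Agent.ES.TwEis
import Fermat.Agent.S28.Key

/-!
# S48 / layer M / EIS : the definitions of `IfEis.lean` (helper6), split off so that the files `Eis/*.lean` can import them
(`IfEis.lean` imports this file; names and bodies unchanged).
-/

set_option autoImplicit false

open UpperHalfPlane ModularForm ModularFormClass WithZero ModularCurve AlgebraicCurve CongruenceSubgroup
open Fermat.Agent.S24 Fermat.Agent.S29 Fermat.Agent.S28
open scoped MatrixGroups Manifold Real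

noncomputable section

namespace Fermat.Agent.S48.M

/-! ### definitions -/

/-- reduction of an integer vector -/
def redV (M : ℕ) (x : Fin 2 → ℤ) : Fin 2 → ZMod M := fun i => (x i : ZMod M)

open Classical in
/-- the indicator of `x ≡ v (M)` -/
def indW (M : ℕ) (v : Fin 2 → ZMod M) (x : Fin 2 → ℤ) : ℂ := if redV M x = v then 1 else 0

/-- the normalising constant `6 M⁴/(2πi)⁴` -/
def cQE (M : ℕ) : ℂ := 6 * (M : ℂ) ^ 4 / (2 * π * Complex.I) ^ 4

/-- the weight 4 Eisenstein series of the class `v` -/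
def QE (M : ℕ) (v : Fin 2 → ZMod M) : ℍ → ℂ := cQE M • ES.wEis 4 (indW M v)

/-- `v ↦ v g` -/
def vg (M : ℕ) (v : Fin 2 → ZMod M) (g : SL(2, ℤ)) : Fin 2 → ZMod M :=
  Matrix.vecMul v ((g : Matrix (Fin 2) (Fin 2) ℤ).map (Int.cast : ℤ → ZMod M))

/-- `ζ_M ^ t` -/
def zpw (M : ℕ) (t : ZMod M) : ℂ := Complex.exp (2 * π * Complex.I / M) ^ t.val

/-- the coefficients of `QE M v` in `q_M` -/
def qeC (M : ℕ) (v : Fin 2 → ZMod M) (n : ℕ) : ℂ :=
  if n = 0 then
    (if v 0 = 0 then cQE M * ∑' x : ℤ, (if (x : ZMod M) = v 1 then ((x : ℂ) ^ 4)⁻¹ else 0) else 0)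
  else ∑ k ∈ n.divisors, (k : ℂ) ^ 3 *
    ((if ((n / k : ℕ) : ZMod M) = v 0 then zpw M (v 1 * k) else 0) +
      (if ((n / k : ℕ) : ZMod M) = - v 0 then zpw M (-(v 1 * k)) else 0))

/-- the Eisenstein series with `q`-expansion `eisZ M b` -/
def VE (M : ℕ) [NeZero M] (b : ZMod M) : ℍ → ℂ :=
  fun τ => 120 * ∑ a : ZMod M, zpw M (-(a * b)) * QE M ![0, a] τ

end Fermat.Agent.S48.M
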