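import Fermat.Agent.S48.M.G0

/-!
# S48 / layer M / EIS : key GRP (helper18): `Γ(M R) ≤ GG M R`, `-1, T ∈ GG M R`, elements of `Γ₀(M)` with given lower right entry
-/

set_option autoImplicit false

open CongruenceSubgroup
open scoped MatrixGroups

noncomputable section

namespace Fermat.Agent.S48.M

namespace EisGrp

variable (M R : ℕ)

theorem Gamma_le : CongruenceSubgroup.Gamma (M * R) ≤ GG M R := by
  intro g hg
  rw [Gamma_mem] at hg
  obtain ⟨-, -, h10, h11⟩ := hg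
  refine mem_GG.2 ⟨Gamma0_mem.2 h10, Or.inl ?_⟩
  have h1 : ((M * R : ℕ) : ℤ) ∣ g 1 1 - 1 := by
    rw [← ZMod.intCast_zmod_eq_zero_iff_dvd]
    push_cast
    rw [h11, sub_self]
  have h2 : (M : ℤ) ∣ g 1 1 - 1 := (Int.natCast_dvd_natCast.2 (Dvd.intro R rfl)).trans h1
  have h3 := (ZMod.intCast_zmod_eq_zero_iff_dvd _ M).2 h2
  push_cast at h3
  exact sub_eq_zero.1 h3

theorem neg_mem : (-1 : SL(2, ℤ)) ∈ GG M R :=
  mem_GG.2 ⟨Gamma0_mem.2 (by simp), Or.inr (by simp)⟩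

theorem T_mem : ModularGroup.T ∈ GG M R :=
  mem_GG.2 ⟨Gamma0_mem.2 (by simp [ModularGroup.T]), Or.inl (by simp [ModularGroup.T])⟩

theorem exists_gamD [NeZero M] (d : (ZMod M)ˣ) :
    ∃ g : SL(2, ℤ), g ∈ Gamma0 M ∧ ((g 1 1 : ℤ) : ZMod M) = d := by
  have hc : Nat.Coprime (d : ZMod M).val M := ZMod.val_coe_unit_coprime d
  have hc' : IsCoprime (((d : ZMod M).val : ℕ) : ℤ) (M : ℤ) := Nat.isCoprime_iff_coprime.2 hc
  obtain ⟨a, b, hab⟩ := hc'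
  refine ⟨⟨!![a, -b; (M : ℤ), (((d : ZMod M).val : ℕ) : ℤ)], ?_⟩, ?_, ?_⟩
  · rw [Matrix.det_fin_two_of]
    linarith
  · rw [Gamma0_mem]
    simp
  · simp

end EisGrp

end Fermat.Agent.S48.M
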