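import Fermat.Agent.S48.M.G0

/-!
# S48 / M-EIS-INJ : `eisZ M b` determines `±b`      (helper13)

The coefficients `120 M ∑_{k ∣ n} k³ ([k = b] + [k = -b])`, `n ≥ 1`, determine `k ↦ [k = b] + [k = -b]` (strong induction on `n`);
evaluate at a positive representative of `b`.
-/

set_option autoImplicit false

namespace Fermat.Agent.S48.M.EisInj

/-- divisor sums determine the function -/
theorem eq_of_sum_divisors_eq (f g : ℕ → ℤ)
    (h : ∀ n, n ≠ 0 → ∑ k ∈ n.divisors, f k = ∑ k ∈ n.divisors, g k) (n : ℕ) (hn : n ≠ 0) :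
    f n = g n := by
  induction n using Nat.strong_induction_on with
  | _ n ih =>
    have h1 := h n hn
    rw [← Nat.insert_self_properDivisors hn,
      Finset.sum_insert Nat.self_notMem_properDivisors,
      Finset.sum_insert Nat.self_notMem_properDivisors] at h1
    have h2 : ∑ k ∈ n.properDivisors, f k = ∑ k ∈ n.properDivisors, g k :=
      Finset.sum_congr rfl fun k hk =>
        ih k (Nat.mem_properDivisors.1 hk).2 (Nat.pos_of_mem_properDivisors hk).ne'
    rw [h2] at h1
    exact add_right_cancel h1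

theorem eisZ_injective (M : ℕ) [NeZero M] (b b' : ZMod M) (h : eisZ M b = eisZ M b') :
    b' = b ∨ b' = -b := by
  have hM : (M : ℤ) ≠ 0 := Nat.cast_ne_zero.2 (NeZero.ne M)
  have key := eq_of_sum_divisors_eq
    (fun k => (k : ℤ) ^ 3 *
      ((if (k : ZMod M) = b then 1 else 0) + (if (k : ZMod M) = -b then 1 else 0)))
    (fun k => (k : ℤ) ^ 3 *
      ((if (k : ZMod M) = b' then 1 else 0) + (if (k : ZMod M) = -b' then 1 else 0)))
    (fun n hn => by
      have h1 := congrArg (PowerSeries.coeff n) h
      rw [eisZ, eisZ, PowerSeries.coeff_mk, PowerSeries.coeff_mk, if_neg hn, if_neg hn] at h1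
      exact mul_left_cancel₀ (mul_ne_zero (by norm_num) hM) h1)
    (b.val + M) (by have := NeZero.pos M; omega)
  have hb : ((b.val + M : ℕ) : ZMod M) = b := by
    rw [Nat.cast_add, ZMod.natCast_self, add_zero, ZMod.natCast_zmod_val]
  have hpos : (((b.val + M : ℕ) : ℤ)) ^ 3 ≠ 0 := by
    have := NeZero.pos M
    positivity
  have key' := mul_left_cancel₀ hpos key
  rw [hb, if_pos rfl] at key'
  by_cases h1 : b = b'
  · exact Or.inl h1.symm
  · by_cases h2 : b = -b'
    · right
      rw [h2, neg_neg]
    · exfalso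
      rw [if_neg h1, if_neg h2] at key'
      split_ifs at key' <;> omega

end Fermat.Agent.S48.M.EisInj
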