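import Fermat.Agent.S48.M.Eis.Defs
import Fermat.Agent.S24.DegreeA
import Fermat.Agent.S20.Basic

/-!
# S48 / layer M / EIS : key INST (helper23)

The proof fields `gens_finite`, `jq_mem`, `gens_int`, `lift`, `stab` of `lvG M R` and the functions `w_b(e τ)`, proved for an
ABSTRACT family `V : ZMod M → ℍ → ℂ` of weight 4 forms with `q`-expansions `eisZ M b` and `V (b d_g) ∣[4] g = V b`
(`g ∈ Γ₀(M)`); `IfEis.lean` applies everything to `V = VE M`.
-/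

set_option autoImplicit false

open UpperHalfPlane ModularForm ModularFormClass WithZero ModularCurve AlgebraicCurve CongruenceSubgroup
open Fermat.Agent.S24 Fermat.Agent.S29 Fermat.Agent.S28
open scoped MatrixGroups Manifold Real

noncomputable section

namespace Fermat.Agent.S48.M

/-! ### holomorphy -/

theorem inst_mdiff (f : ℍ → ℂ) (hf : MDiff f) (e : ℕ) [NeZero e] :
    MDiff (fun τ : ℍ => f (scaleH e τ) * E₄ (scaleH e τ) ^ 2 / discriminant (scaleH e τ)) := by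
  have h4 : MDiff (E₄ : ℍ → ℂ) := E₄.holo'
  have hd : MDiff (discriminant : ℍ → ℂ) := CuspForm.discriminant.holo'
  have h : MDiff (fun τ : ℍ => f τ * E₄ τ ^ 2 / discriminant τ) := by
    rw [UpperHalfPlane.mdifferentiable_iff] at h4 hd hf ⊢
    have : ((fun τ : ℍ => f τ * E₄ τ ^ 2 / discriminant τ) ∘ ofComplex)
        = fun z => (f ∘ ofComplex) z * ((E₄ : ℍ → ℂ) ∘ ofComplex) z ^ 2 /
          ((discriminant : ℍ → ℂ) ∘ ofComplex) z := rfl
    rw [this]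
    exact (hf.mul (h4.pow 2)).div hd (fun z _ => discriminant_ne_zero _)
  exact MDifferentiable.comp h (mdiff_scaleH e)

/-- `τ ↦ (f · E₄² / Δ)(e τ)` -/
def instW (f : ℍ → ℂ) (hf : MDiff f) (e : ℕ) [NeZero e] : Hol :=
  ⟨fun τ => f (scaleH e τ) * E₄ (scaleH e τ) ^ 2 / discriminant (scaleH e τ), inst_mdiff f hf e⟩

/-- `s · E₄² / Δ` -/
def instS (s : PowerSeries ℤ) : LaurentSeries ℚ :=
  HahnSeries.single (-1 : ℤ) 1 * HahnSeries.ofPowerSeries ℤ ℚ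
    ((s * eisenstein4 ^ 2 * dedekindEtaUnitInv).map (Int.castRingHom ℚ))

theorem wS_eq_instS (M : ℕ) (b : ZMod M) : wS M b = instS (eisZ M b) := rfl

theorem instS_mul_delta (s : PowerSeries ℤ) :
    instS s * HahnSeries.ofPowerSeries ℤ ℚ ((PowerSeries.X * dedekindEtaUnit).map (Int.castRingHom ℚ)) =
      HahnSeries.ofPowerSeries ℤ ℚ (s.map (Int.castRingHom ℚ)) *
        HahnSeries.ofPowerSeries ℤ ℚ (eisenstein4.map (Int.castRingHom ℚ)) ^ 2 := by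
  have h1 : (s * eisenstein4 ^ 2 * dedekindEtaUnitInv).map (Int.castRingHom ℚ) *
      dedekindEtaUnit.map (Int.castRingHom ℚ) =
      s.map (Int.castRingHom ℚ) * (eisenstein4.map (Int.castRingHom ℚ)) ^ 2 := by
    rw [← map_mul, mul_assoc, mul_comm dedekindEtaUnitInv, dedekindEtaUnit_mul_inv,
      mul_one, map_mul, map_pow]
  have hX : (PowerSeries.X * dedekindEtaUnit).map (Int.castRingHom ℚ) =
      PowerSeries.X * dedekindEtaUnit.map (Int.castRingHom ℚ) := by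
    rw [map_mul, PowerSeries.map_X]
  rw [instS, hX, ← map_pow, ← map_mul, ← h1]
  generalize (s * eisenstein4 ^ 2 * dedekindEtaUnitInv).map (Int.castRingHom ℚ) = A
  generalize dedekindEtaUnit.map (Int.castRingHom ℚ) = B
  rw [map_mul, map_mul, HahnSeries.ofPowerSeries_X]
  have h2 : (HahnSeries.single (-1 : ℤ) (1 : ℚ)) * HahnSeries.single (1 : ℤ) (1 : ℚ) = 1 := by
    rw [HahnSeries.single_mul_single]
    simp
  calc _ = (HahnSeries.single (-1 : ℤ) (1 : ℚ) * HahnSeries.single (1 : ℤ) (1 : ℚ)) *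
        (HahnSeries.ofPowerSeries ℤ ℚ A * HahnSeries.ofPowerSeries ℤ ℚ B) := by ring
    _ = _ := by rw [h2, one_mul]

theorem inst_exists_wQ (f : ℍ → ℂ) (s : PowerSeries ℤ) (hf : IsQ f)
    (hs : qExpansion 1 f = s.map (Int.castRingHom ℂ)) (e : ℕ) [NeZero e] : ∃ y : Qq,
    phiS y = coeffEmb Kb (qExpand ℚ e (instS s)) ∧ phiH y = algebraMap Hol Mer (instW f hf.holo e) := by
  refine ⟨algebraMap Bq Qq (scaleB f s hf hs e) * algebraMap Bq Qq (e4B e) ^ 2 /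
    algebraMap Bq Qq (deltaB e), ?_, ?_⟩
  · have h0 : phiS (algebraMap Bq Qq (deltaB e)) ≠ 0 :=
      (map_ne_zero phiS).mpr (algebraMap_deltaB_ne_zero e)
    rw [map_div₀, map_mul, map_pow, div_eq_iff h0, phiS_algebraMap, phiS_algebraMap, phiS_algebraMap]
    show HahnSeries.ofPowerSeries ℤ Kb (expandK Kb e s) *
        HahnSeries.ofPowerSeries ℤ Kb (expandK Kb e eisenstein4) ^ 2 =
      _ * HahnSeries.ofPowerSeries ℤ Kb (expandK Kb e (PowerSeries.X * dedekindEtaUnit))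
    rw [ofPowerSeries_expandK, ofPowerSeries_expandK, ofPowerSeries_expandK, ← map_mul, ← map_mul,
      instS_mul_delta, map_mul, map_mul, map_pow, map_pow]
  · have h0 : phiH (algebraMap Bq Qq (deltaB e)) ≠ 0 :=
      (map_ne_zero phiH).mpr (algebraMap_deltaB_ne_zero e)
    rw [map_div₀, map_mul, map_pow, div_eq_iff h0, phiH_algebraMap, phiH_algebraMap, phiH_algebraMap,
      ← map_pow, ← map_mul, ← map_mul]
    congr 1
    ext τ
    show f (scaleH e τ) * E₄ (scaleH e τ) ^ 2 =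
      (f (scaleH e τ) * E₄ (scaleH e τ) ^ 2 / discriminant (scaleH e τ)) * discriminant (scaleH e τ)
    exact (div_mul_cancel₀ _ (discriminant_ne_zero _)).symm


/-! ### modular forms on `GG M R` -/

open Matrix.SpecialLinearGroup in
theorem inst_exists_comm {N : ℕ} (hN : N ≠ 0) (g : SL(2, ℤ)) (hg : (N : ℤ) ∣ g 1 0) :
    ∃ g' : SL(2, ℤ), heckeDiagMatrix N * mapGL ℝ g = mapGL ℝ g' * heckeDiagMatrix N ∧
      g 1 0 = N * g' 1 0 ∧ g' 1 1 = g 1 1 := by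
  obtain ⟨g', hg'⟩ := IntStruct.exists_comm hN g hg
  refine ⟨g', hg', ?_, ?_⟩
  · have h := congrArg (fun A : GL (Fin 2) ℝ => (A : Matrix (Fin 2) (Fin 2) ℝ) 1 0) hg'
    simp [hN, Matrix.mul_apply, Fin.sum_univ_two] at h
    have h' : ((g 1 0 : ℤ) : ℝ) = ((N * g' 1 0 : ℤ) : ℝ) := by push_cast; linarith
    exact_mod_cast h'
  · have h := congrArg (fun A : GL (Fin 2) ℝ => (A : Matrix (Fin 2) (Fin 2) ℝ) 1 1) hg'
    simp [hN, Matrix.mul_apply, Fin.sum_univ_two] at h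
    exact h.symm

theorem inst_dvd_of_mem_GG {M R : ℕ} {g : SL(2, ℤ)} (hg : g ∈ GG M R) : ((M * R : ℕ) : ℤ) ∣ g 1 0 :=
  (ZMod.intCast_zmod_eq_zero_iff_dvd _ _).mp (CongruenceSubgroup.Gamma0_mem.mp (mem_GG.mp hg).1)

open Matrix.SpecialLinearGroup in
theorem inst_isMF_slash (M R e : ℕ) [NeZero e] (he : e ∣ R) {k : ℤ} {f : ℍ → ℂ}
    (hf : S20.IsMF (GG M 1) k f) : S20.IsMF (GG M R) k (f ∣[k] heckeDiagMatrix e) := by
  have he0 := NeZero.ne e
  refine ⟨hf.holo.slash k _, fun g hg => ?_, fun γ => ?_⟩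
  · have h1 := inst_dvd_of_mem_GG hg
    obtain ⟨t, rfl⟩ := he
    have h2 : (e : ℤ) ∣ g 1 0 := Dvd.dvd.trans ⟨(M * t : ℕ), by push_cast; ring⟩ h1
    obtain ⟨g', hg', h3, h4⟩ := inst_exists_comm he0 g h2
    have hg'' : g' ∈ GG M 1 := by
      rw [mem_GG, h4]
      refine ⟨?_, (mem_GG.mp hg).2⟩
      rw [CongruenceSubgroup.Gamma0_mem, ZMod.intCast_zmod_eq_zero_iff_dvd]
      obtain ⟨c, hc⟩ := h1
      refine ⟨t * c, ?_⟩
      have he' : (e : ℤ) ≠ 0 := by exact_mod_cast he0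
      apply mul_left_cancel₀ he'
      rw [← h3, hc]
      push_cast
      ring
    have hF : f ∣[k] (mapGL ℝ g') = f := hf.inv g' hg''
    show (f ∣[k] heckeDiagMatrix e) ∣[k] (mapGL ℝ g) = f ∣[k] heckeDiagMatrix e
    rw [← SlashAction.slash_mul, hg', SlashAction.slash_mul, hF]
  · obtain ⟨g', a, b, d, had, -, -, -, -, h⟩ := IntStruct.exists_factor he0 γ
    have hF : IsBoundedAtImInfty (f ∣[k] (mapGL ℝ g')) := hf.bdd g'
    change IsBoundedAtImInfty ((f ∣[k] heckeDiagMatrix e) ∣[k] (mapGL ℝ γ))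
    rw [← SlashAction.slash_mul, h, SlashAction.slash_mul]
    exact IsBoundedAtImInfty.slash k (by simp) hF

theorem inst_isMF_scale (M R e : ℕ) [NeZero e] (he : e ∣ R) {k : ℤ} {f : ℍ → ℂ}
    (hf : S20.IsMF (GG M 1) k f) : S20.IsMF (GG M R) k (fun τ => f (scaleH e τ)) := by
  have h := (inst_isMF_slash M R e he hf).smul (((e : ℂ) ^ (k - 1))⁻¹)
  have hdC : ((e : ℂ) ^ (k - 1)) ≠ 0 := zpow_ne_zero _ (by exact_mod_cast NeZero.ne e)
  convert h using 1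
  funext τ
  rw [Pi.smul_apply, slash_heckeDiagMatrix_apply k (NeZero.ne e), heckeDiagMatrix_smul, smul_eq_mul,
    inv_mul_cancel_left₀ hdC]

theorem inst_Gamma_le (M R : ℕ) : CongruenceSubgroup.Gamma (M * R) ≤ GG M R := by
  intro g hg
  rw [CongruenceSubgroup.Gamma_mem] at hg
  obtain ⟨-, -, h3, h4⟩ := hg
  refine mem_GG.mpr ⟨CongruenceSubgroup.Gamma0_mem.mpr h3, Or.inl ?_⟩
  have := congrArg (ZMod.castHom (dvd_mul_right M R) (ZMod M)) h4
  simpa using this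

theorem inst_finiteIndex (M R : ℕ) [NeZero M] [NeZero R] : (GG M R).FiniteIndex :=
  haveI : NeZero (M * R) := ⟨mul_ne_zero (NeZero.ne M) (NeZero.ne R)⟩
  Subgroup.finiteIndex_of_le (inst_Gamma_le M R)

theorem inst_isMFH (M R : ℕ) [NeZero M] [NeZero R] {k : ℤ} {f : ℍ → ℂ}
    (hf : S20.IsMF (GG M R) k f) : IsMFH (GG M R : Subgroup (GL (Fin 2) ℝ)) k ⟨f, hf.holo⟩ :=
  haveI := inst_finiteIndex M R
  ⟨hf.toModularForm, rfl⟩

theorem inst_isQuotL (M R e : ℕ) [NeZero M] [NeZero R] [NeZero e] (he : e ∣ R) {f : ℍ → ℂ}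
    (hf : S20.IsMF (GG M 1) 4 f) :
    IsQuotL (GG M R) (algebraMap Hol Mer (instW f hf.holo e)) := by
  have h4 : S20.IsMF (GG M R) 4 (fun τ => E₄ (scaleH e τ)) :=
    inst_isMF_scale M R e he (S20.isMF_top_of_modularForm E₄).of_top
  have hD : S20.IsMF (GG M R) 12 (fun τ => discriminant (scaleH e τ)) :=
    inst_isMF_scale M R e he (S20.isCF_top_of_cuspForm CuspForm.discriminant).isMF.of_top
  have hf' := inst_isMF_scale M R e he hf
  have hA : S20.IsMF (GG M R) (12 * ((1 : ℕ) : ℤ))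
      ((fun τ => f (scaleH e τ)) * ((fun τ => E₄ (scaleH e τ)) * (fun τ => E₄ (scaleH e τ)))) :=
    hf'.mul' (h4.mul h4) (by norm_num)
  have hD' : S20.IsMF (GG M R) (12 * ((1 : ℕ) : ℤ)) (fun τ => discriminant (scaleH e τ)) :=
    hD.weight_cast (by norm_num)
  refine ⟨1, _, _, inst_isMFH M R hA, inst_isMFH M R hD', ?_, ?_⟩
  · intro h
    exact discriminant_ne_zero _ (congrFun (congrArg Subtype.val h) I)
  · rw [← map_mul]
    congr 1
    ext τ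
    show (f (scaleH e τ) * E₄ (scaleH e τ) ^ 2 / discriminant (scaleH e τ)) * discriminant (scaleH e τ) =
      f (scaleH e τ) * (E₄ (scaleH e τ) * E₄ (scaleH e τ))
    rw [div_mul_cancel₀ _ (discriminant_ne_zero _), sq]


theorem inst_slash_neg_one (f : ℍ → ℂ) : f ∣[(4 : ℤ)] (-1 : SL(2, ℤ)) = f := by
  funext τ
  rw [SL_slash_apply]
  have h1 : (-1 : SL(2, ℤ)) • τ = τ := by
    rw [ModularGroup.SL_neg_smul, one_smul]
  have h2 : denom ((-1 : SL(2, ℤ)) : GL (Fin 2) ℝ) τ = -1 := by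
    simp [denom]
  rw [h1, h2]
  norm_num


theorem inst_GG_le (M R : ℕ) : GG M R ≤ Gamma0 (M * R) := fun _ hg => (mem_GG.mp hg).1

theorem inst_isMFH_mono (M R : ℕ) [NeZero M] [NeZero R] {k : ℤ} {a : Hol}
    (ha : IsMFH (Gamma0 (M * R) : Subgroup (GL (Fin 2) ℝ)) k a) :
    IsMFH (GG M R : Subgroup (GL (Fin 2) ℝ)) k a := by
  have : NeZero (M * R) := ⟨mul_ne_zero (NeZero.ne M) (NeZero.ne R)⟩
  obtain ⟨F, rfl⟩ := ha
  exact inst_isMFH M R ((S20.isMF_of_modularForm F).mono (inst_GG_le M R))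

theorem inst_isQuotL_jHd (M R : ℕ) [NeZero M] [NeZero R] (d : ℕ) [NeZero d] (hd : d ∣ M * R) :
    IsQuotL (GG M R) (algebraMap Hol Mer (jHd d)) := by
  have : NeZero (M * R) := ⟨mul_ne_zero (NeZero.ne M) (NeZero.ne R)⟩
  obtain ⟨m, a, b, ha, hb, hb0, h⟩ := IsQuot.jHd (M * R) d hd
  exact ⟨m, a, b, inst_isMFH_mono M R ha, inst_isMFH_mono M R hb, hb0, h⟩

theorem inst_scaleH_one (τ : ℍ) : scaleH 1 τ = τ := by
  ext
  simp

theorem inst_aux (a b c a' b' c' D : ℂ) (hD : D ≠ 0) (h1 : a' * D ^ (-(4 : ℤ)) = a)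
    (h2 : b' * D ^ (-(4 : ℤ)) = b) (h3 : c' * D ^ (-(12 : ℤ)) = c) (hc : c' ≠ 0) :
    a' * b' ^ 2 / c' = a * b ^ 2 / c := by
  rw [← h1, ← h2, ← h3, zpow_neg, zpow_neg]
  have e4 : D ^ (4 : ℤ) = D ^ 4 := by norm_cast
  have e12 : D ^ (12 : ℤ) = D ^ 12 := by norm_cast
  rw [e4, e12]
  field_simp

theorem inst_holAct_fun (f f' : ℍ → ℂ) (g : SL(2, ℤ)) (h : f' ∣[(4 : ℤ)] g = f) (τ : ℍ) :
    f' (g • τ) * E₄ (g • τ) ^ 2 / discriminant (g • τ) = f τ * E₄ τ ^ 2 / discriminant τ := by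
  have h1 : (f' ∣[(4 : ℤ)] g) τ = f τ := congrFun h τ
  have h2 : ((E₄ : ℍ → ℂ) ∣[(4 : ℤ)] g) τ = E₄ τ :=
    congrFun ((S20.isMF_top_of_modularForm E₄).inv g trivial) τ
  have h3 : ((discriminant : ℍ → ℂ) ∣[(12 : ℤ)] g) τ = discriminant τ :=
    congrFun ((S20.isCF_top_of_cuspForm CuspForm.discriminant).inv g trivial) τ
  rw [SL_slash_apply] at h1 h2 h3
  exact inst_aux _ _ _ _ _ _ _ (denom_ne_zero _ τ) h1 h2 h3 (discriminant_ne_zero _)

/-! ### the generators -/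

theorem inst_coeff_int (P : PowerSeries ℤ) (d : ℕ) [NeZero d] (i : ℤ) : ∃ z : ℤ,
    (qExpand ℚ d (HahnSeries.single (-1 : ℤ) 1 *
      HahnSeries.ofPowerSeries ℤ ℚ (P.map (Int.castRingHom ℚ)))).coeff i = z := by
  by_cases hdi : (d : ℤ) ∣ i
  · obtain ⟨k, rfl⟩ := hdi
    rw [qExpand_coeff_mul, HahnSeries.coeff_single_mul, one_mul]
    rcases lt_or_ge (k - -1) 0 with hk | hk
    · exact ⟨0, by rw [ofPowerSeries_coeff_of_neg _ hk]; simp⟩
    · obtain ⟨n, hn⟩ := Int.eq_ofNat_of_zero_le hk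
      rw [hn, HahnSeries.ofPowerSeries_apply_coeff, PowerSeries.coeff_map]
      exact ⟨_, rfl⟩
  · exact ⟨0, by rw [qExpand_coeff_of_not_dvd _ _ hdi]; simp⟩

theorem inst_gens_int (M R : ℕ) : ∀ x ∈ gensG M R, ∀ i : ℤ, ∃ z : ℤ, x.coeff i = z := by
  rintro x (⟨d, hd, -, rfl⟩ | ⟨e, he, b, -, rfl⟩) i
  · exact inst_coeff_int jNum d i
  · exact inst_coeff_int _ e i

theorem inst_jq_mem (M R : ℕ) : jq ∈ gensG M R :=
  Or.inl ⟨1, inferInstance, one_dvd _, (qExpand_one_apply jq).symm⟩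

theorem inst_gens_finite (M R : ℕ) [NeZero M] [NeZero R] : (gensG M R).Finite := by
  have hMR : M * R ≠ 0 := mul_ne_zero (NeZero.ne M) (NeZero.ne R)
  refine Set.Finite.union ?_ ?_
  · let φ : ℕ → LaurentSeries ℚ := fun d =>
      if h : d = 0 then 0 else (haveI : NeZero d := ⟨h⟩; qExpand ℚ d jq)
    refine ((Nat.divisors (M * R)).finite_toSet.image φ).subset ?_
    rintro x ⟨d, hd, hdvd, rfl⟩
    refine ⟨d, Finset.mem_coe.mpr (Nat.mem_divisors.mpr ⟨hdvd, hMR⟩), ?_⟩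
    exact dif_neg (NeZero.ne d)
  · let φ : ℕ × ZMod M → LaurentSeries ℚ := fun p =>
      if h : p.1 = 0 then 0 else (haveI : NeZero p.1 := ⟨h⟩; qExpand ℚ p.1 (wS M p.2))
    refine (((Nat.divisors R).finite_toSet.prod (Set.finite_univ (α := ZMod M))).image φ).subset ?_
    rintro x ⟨e, he, b, hdvd, rfl⟩
    refine ⟨(e, b), ⟨Finset.mem_coe.mpr (Nat.mem_divisors.mpr ⟨hdvd, NeZero.ne R⟩), Set.mem_univ _⟩, ?_⟩
    exact dif_neg (NeZero.ne e)


theorem inst_holAct (f f' : ℍ → ℂ) (hf : MDiff f) (hf' : MDiff f') (g : SL(2, ℤ))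
    (h : f' ∣[(4 : ℤ)] g = f) : holAct g⁻¹ (instW f' hf' 1) = instW f hf 1 := by
  ext τ
  show f' (scaleH 1 (g⁻¹⁻¹ • τ)) * E₄ (scaleH 1 (g⁻¹⁻¹ • τ)) ^ 2 / discriminant (scaleH 1 (g⁻¹⁻¹ • τ)) =
    f (scaleH 1 τ) * E₄ (scaleH 1 τ) ^ 2 / discriminant (scaleH 1 τ)
  rw [inst_scaleH_one, inst_scaleH_one, inv_inv]
  exact inst_holAct_fun f f' g h τ

theorem instS_injective : Function.Injective instS := by
  intro s s' h
  have h1 := instS_mul_delta s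
  rw [h, instS_mul_delta s'] at h1
  have hE : HahnSeries.ofPowerSeries ℤ ℚ (eisenstein4.map (Int.castRingHom ℚ)) ≠ 0 := by
    intro h0
    have h2 : eisenstein4.map (Int.castRingHom ℚ) = 0 :=
      HahnSeries.ofPowerSeries_injective (by rw [h0, map_zero])
    have h3 := congrArg (PowerSeries.coeff 0) h2
    rw [PowerSeries.coeff_map, PowerSeries.coeff_zero_eq_constantCoeff, constantCoeff_eisenstein4] at h3
    simp at h3
  have h4 := HahnSeries.ofPowerSeries_injective (mul_right_cancel₀ (pow_ne_zero 2 hE) h1)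
  exact (PowerSeries.map_injective (Int.castRingHom ℚ) Int.cast_injective h4).symm

/-! ### an abstract family -/

section Family

variable (M : ℕ) [NeZero M] (V : ZMod M → ℍ → ℂ)

omit [NeZero M] in
theorem inst_V_neg
    (hsl : ∀ (b : ZMod M) (g : SL(2, ℤ)), g ∈ Gamma0 M →
      V (b * ((g 1 1 : ℤ) : ZMod M)) ∣[(4 : ℤ)] g = V b) (b : ZMod M) : V (-b) = V b := by
  have h := hsl b (-1) (by rw [Gamma0_mem]; simp)
  rw [inst_slash_neg_one] at h
  simpa using h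

omit [NeZero M] in
theorem inst_isMF_V (hh : ∀ b, MDiff (V b))
    (hsl : ∀ (b : ZMod M) (g : SL(2, ℤ)), g ∈ Gamma0 M →
      V (b * ((g 1 1 : ℤ) : ZMod M)) ∣[(4 : ℤ)] g = V b)
    (hbd : ∀ (b : ZMod M) (g : SL(2, ℤ)), IsBoundedAtImInfty (V b ∣[(4 : ℤ)] g)) (b : ZMod M) :
    S20.IsMF (GG M 1) 4 (V b) := by
  refine ⟨hh b, fun g hg => ?_, hbd b⟩
  obtain ⟨h0, h1⟩ := mem_GG.mp hg
  rw [mul_one] at h0
  have h := hsl b g h0
  rcases h1 with h1 | h1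
  · rwa [h1, mul_one] at h
  · rwa [h1, mul_neg_one, inst_V_neg M V hsl] at h

theorem inst_lift (R : ℕ) [NeZero R] (hQ : ∀ b, IsQ (V b))
    (hq : ∀ b, qExpansion 1 (V b) = (eisZ M b).map (Int.castRingHom ℂ))
    (hsl : ∀ (b : ZMod M) (g : SL(2, ℤ)), g ∈ Gamma0 M →
      V (b * ((g 1 1 : ℤ) : ZMod M)) ∣[(4 : ℤ)] g = V b)
    (hbd : ∀ (b : ZMod M) (g : SL(2, ℤ)), IsBoundedAtImInfty (V b ∣[(4 : ℤ)] g)) :
    ∀ x ∈ gensG M R, ∃ y : Qq, phiS y = coeffEmb Kb x ∧ IsQuotL (GG M R) (phiH y) := by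
  rintro x (⟨d, hd, hdvd, rfl⟩ | ⟨e, he, b, hdvd, rfl⟩)
  · exact ⟨jQ d, phiS_jQ d, by rw [phiH_jQ]; exact inst_isQuotL_jHd M R d hdvd⟩
  · obtain ⟨y, h1, h2⟩ := inst_exists_wQ (V b) (eisZ M b) (hQ b) (hq b) e
    exact ⟨y, h1, by
      rw [h2]; exact inst_isQuotL M R e hdvd (inst_isMF_V M V (fun b => (hQ b).holo) hsl hbd b)⟩

theorem inst_stab (R : ℕ) [NeZero R] (hQ : ∀ b, IsQ (V b))
    (hq : ∀ b, qExpansion 1 (V b) = (eisZ M b).map (Int.castRingHom ℂ))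
    (hsl : ∀ (b : ZMod M) (g : SL(2, ℤ)), g ∈ Gamma0 M →
      V (b * ((g 1 1 : ℤ) : ZMod M)) ∣[(4 : ℤ)] g = V b)
    (hinj : ∀ b b' : ZMod M, eisZ M b = eisZ M b' → b' = b ∨ b' = -b) :
    ∀ g : SL(2, ℤ),
      (∀ x ∈ gensG M R, ∀ y : Qq, phiS y = coeffEmb Kb x → merAct g (phiH y) = phiH y) →
        g ∈ GG M R := by
  intro g hg
  have : NeZero (M * R) := ⟨mul_ne_zero (NeZero.ne M) (NeZero.ne R)⟩
  have h1 : g ∈ Gamma0 (M * R) := by
    have h := hg (qExpand ℚ (M * R) jq) (Or.inl ⟨M * R, inferInstance, dvd_rfl, rfl⟩)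
      (jQ (M * R)) (phiS_jQ _)
    rw [phiH_jQ, merAct_algebraMap] at h
    exact mem_Gamma0_of_holAct (M * R) (IsFractionRing.injective Hol Mer h)
  have h1' : g ∈ Gamma0 M := by
    rw [Gamma0_mem, ZMod.intCast_zmod_eq_zero_iff_dvd] at h1 ⊢
    exact Dvd.dvd.trans ⟨(R : ℤ), by push_cast; ring⟩ h1
  refine mem_GG.mpr ⟨h1, ?_⟩
  generalize hd : ((g 1 1 : ℤ) : ZMod M) = d
  obtain ⟨y1, hy1S, hy1H⟩ := inst_exists_wQ (V 1) (eisZ M 1) (hQ 1) (hq 1) 1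
  obtain ⟨yd, hydS, hydH⟩ := inst_exists_wQ (V d) (eisZ M d) (hQ d) (hq d) 1
  have h2 := hg _ (Or.inr ⟨1, inferInstance, 1, one_dvd _, rfl⟩) y1 hy1S
  have h3 : holAct g⁻¹ (instW (V d) (hQ d).holo 1) = instW (V 1) (hQ 1).holo 1 :=
    inst_holAct _ _ _ _ g (by have := hsl 1 g h1'; rwa [one_mul, hd] at this)
  have h4 : phiH yd = phiH y1 := by
    rw [hydH, ← h2, hy1H, merAct_algebraMap, ← h3, ← MerAux.holAct_mul, mul_inv_cancel, MerAux.holAct_one]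
  have h5 : yd = y1 := phiH.injective h4
  have h6 : coeffEmb Kb (qExpand ℚ 1 (instS (eisZ M d))) =
      coeffEmb Kb (qExpand ℚ 1 (instS (eisZ M 1))) := by rw [← hydS, ← hy1S, h5]
  have h7 : instS (eisZ M d) = instS (eisZ M 1) :=
    qExpand_injective 1 ((coeffEmb Kb).injective h6)
  exact hinj 1 d (instS_injective h7).symm

end Family

end Fermat.Agent.S48.M
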