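import Fermat.Agent.S48.M.Eis.Defs

/-!
# S48 / layer M / EIS : key SL (helper18): holomorphy, slash law, boundedness of `QE M v`, `VE M b`
-/

set_option autoImplicit false

open UpperHalfPlane ModularForm ModularFormClass WithZero ModularCurve AlgebraicCurve CongruenceSubgroup
open Fermat.Agent.S24 Fermat.Agent.S29 Fermat.Agent.S28
open scoped MatrixGroups Manifold Real Matrix

noncomputable section

namespace Fermat.Agent.S48.M

namespace EisSL

variable (M : ℕ)

theorem norm_indW_le (v : Fin 2 → ZMod M) (x : Fin 2 → ℤ) : ‖indW M v x‖ ≤ 1 := by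
  unfold indW
  split_ifs <;> simp

theorem redV_vecMul (x : Fin 2 → ℤ) (g : SL(2, ℤ)) :
    redV M (x ᵥ* (g : Matrix (Fin 2) (Fin 2) ℤ)) = vg M (redV M x) g := by
  funext i
  simp only [redV, vg, Matrix.vecMul, dotProduct, Fin.sum_univ_two, Matrix.map_apply]
  push_cast
  rfl

theorem vg_mul (v : Fin 2 → ZMod M) (g h : SL(2, ℤ)) : vg M v (g * h) = vg M (vg M v g) h := by
  unfold vg
  rw [Matrix.vecMul_vecMul, Matrix.SpecialLinearGroup.coe_mul]
  congr 1
  exact Matrix.map_mul (f := Int.castRingHom (ZMod M))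

theorem vg_one (v : Fin 2 → ZMod M) : vg M v 1 = v := by
  unfold vg
  rw [Matrix.SpecialLinearGroup.coe_one]
  have : (1 : Matrix (Fin 2) (Fin 2) ℤ).map (Int.cast : ℤ → ZMod M) = 1 :=
    Matrix.map_one (Int.cast : ℤ → ZMod M) Int.cast_zero Int.cast_one
  rw [this, Matrix.vecMul_one]

theorem vg_neg (v : Fin 2 → ZMod M) (g : SL(2, ℤ)) : vg M (-v) g = - vg M v g := by
  unfold vg
  rw [Matrix.neg_vecMul]

theorem vg_apply (v : Fin 2 → ZMod M) (g : SL(2, ℤ)) :
    vg M v g = ![v 0 * ((g 0 0 : ℤ) : ZMod M) + v 1 * ((g 1 0 : ℤ) : ZMod M),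
      v 0 * ((g 0 1 : ℤ) : ZMod M) + v 1 * ((g 1 1 : ℤ) : ZMod M)] := by
  funext i
  fin_cases i <;>
  simp [vg, Matrix.vecMul, dotProduct, Fin.sum_univ_two, Matrix.map_apply]

theorem indW_vecMul_inv (v : Fin 2 → ZMod M) (g : SL(2, ℤ)) (x : Fin 2 → ℤ) :
    indW M v (x ᵥ* ((g⁻¹ : SL(2, ℤ)) : Matrix (Fin 2) (Fin 2) ℤ)) = indW M (vg M v g) x := by
  unfold indW
  rw [redV_vecMul]
  have : vg M (redV M x) g⁻¹ = v ↔ redV M x = vg M v g := by
    constructor
    · intro h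
      rw [← h, ← vg_mul, inv_mul_cancel, vg_one]
    · intro h
      rw [h, ← vg_mul, mul_inv_cancel, vg_one]
  simp only [this]

theorem mdiff_QE (v : Fin 2 → ZMod M) : MDiff (QE M v) :=
  (ES.mdifferentiable_wEis (by norm_num) (norm_indW_le M v)).const_smul _

theorem QE_slash (v : Fin 2 → ZMod M) (g : SL(2, ℤ)) : QE M v ∣[(4 : ℤ)] g = QE M (vg M v g) := by
  rw [QE, SL_smul_slash, ES.wEis_slash, QE]
  congr 2
  funext x
  exact indW_vecMul_inv M v g x

theorem QE_neg (v : Fin 2 → ZMod M) : QE M (-v) = QE M v := by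
  rw [QE, QE]
  congr 1
  funext z
  rw [ES.wEis, ES.wEis, ← (Equiv.neg (Fin 2 → ℤ)).tsum_eq]
  refine tsum_congr fun x => ?_
  have h1 : indW M (-v) (Equiv.neg (Fin 2 → ℤ) x) = indW M v x := by
    unfold indW
    have : redV M (Equiv.neg (Fin 2 → ℤ) x) = -v ↔ redV M x = v := by
      have h2 : redV M (Equiv.neg (Fin 2 → ℤ) x) = - redV M x := by
        funext i
        simp [redV]
      rw [h2, neg_inj]
    simp only [this]
  have h2 : EisensteinSeries.eisSummand 4 (Equiv.neg (Fin 2 → ℤ) x) z =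
      EisensteinSeries.eisSummand 4 x z := by
    simp only [EisensteinSeries.eisSummand, Equiv.neg_apply, Pi.neg_apply, Int.cast_neg]
    have : -(x 0 : ℂ) * (z : ℂ) + -(x 1 : ℂ) = -((x 0 : ℂ) * (z : ℂ) + (x 1 : ℂ)) := by ring
    rw [this]
    exact (Even.neg_zpow (by decide) _)
  rw [h1, h2]

theorem bdd_QE_slash (v : Fin 2 → ZMod M) (g : SL(2, ℤ)) :
    IsBoundedAtImInfty (QE M v ∣[(4 : ℤ)] g) := by
  rw [QE, SL_smul_slash]
  exact (ES.isBoundedAtImInfty_wEis_slash (by norm_num) (norm_indW_le M v) g).const_smul_left _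

variable [NeZero M]

theorem VE_slash_apply (b : ZMod M) (g : SL(2, ℤ)) (τ : ℍ) :
    (VE M b ∣[(4 : ℤ)] g) τ = 120 * ∑ a : ZMod M, zpw M (-(a * b)) * QE M (vg M ![0, a] g) τ := by
  rw [SL_slash_apply, VE, mul_assoc, Finset.sum_mul]
  congr 1
  refine Finset.sum_congr rfl fun a _ => ?_
  rw [← QE_slash, SL_slash_apply, mul_assoc]

theorem isUnit_of_mem_Gamma0 {g : SL(2, ℤ)} (hg : g ∈ Gamma0 M) :
    IsUnit ((g 1 1 : ℤ) : ZMod M) := by
  have h1 : ((g 1 0 : ℤ) : ZMod M) = 0 := Gamma0_mem.1 hg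
  have h2 : (g 0 0 : ℤ) * g 1 1 - g 0 1 * g 1 0 = 1 := by
    have := g.det_coe
    rwa [Matrix.det_fin_two] at this
  have h3 : ((g 0 0 : ℤ) : ZMod M) * ((g 1 1 : ℤ) : ZMod M) = 1 := by
    have := congrArg (Int.cast : ℤ → ZMod M) h2
    push_cast at this
    rw [h1, mul_zero, sub_zero] at this
    exact this
  exact IsUnit.of_mul_eq_one_right _ h3

theorem VE_slash (b : ZMod M) (g : SL(2, ℤ)) (hg : g ∈ Gamma0 M) :
    VE M (b * ((g 1 1 : ℤ) : ZMod M)) ∣[(4 : ℤ)] g = VE M b := by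
  funext τ
  rw [VE_slash_apply, VE]
  congr 1
  obtain ⟨u, hu⟩ := isUnit_of_mem_Gamma0 M hg
  have h1 : ((g 1 0 : ℤ) : ZMod M) = 0 := Gamma0_mem.1 hg
  rw [← Equiv.sum_comp (Units.mulRight u) (fun a : ZMod M => zpw M (-(a * b)) * QE M ![0, a] τ)]
  refine Finset.sum_congr rfl fun a _ => ?_
  have h2 : vg M ![0, a] g = ![0, a * u] := by
    rw [vg_apply, h1, hu]
    simp
  rw [h2, Units.mulRight_apply, hu]
  congr 3
  ring

theorem bdd_VE_slash (b : ZMod M) (g : SL(2, ℤ)) : IsBoundedAtImInfty (VE M b ∣[(4 : ℤ)] g) := by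
  have h : VE M b ∣[(4 : ℤ)] g =
      (120 : ℂ) • ∑ a : ZMod M, zpw M (-(a * b)) • (QE M ![0, a] ∣[(4 : ℤ)] g) := by
    funext τ
    rw [VE_slash_apply]
    simp only [Pi.smul_apply, Finset.sum_apply, smul_eq_mul, QE_slash]
  rw [h]
  suffices h2 : IsBoundedAtImInfty (∑ a : ZMod M, zpw M (-(a * b)) • (QE M ![0, a] ∣[(4 : ℤ)] g)) from
    h2.const_smul_left _
  have : ∀ s : Finset (ZMod M), IsBoundedAtImInfty
      (∑ a ∈ s, zpw M (-(a * b)) • (QE M ![0, a] ∣[(4 : ℤ)] g)) := by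
    intro s
    induction s using Finset.induction_on with
    | empty =>
      rw [Finset.sum_empty]
      exact Filter.const_boundedAtFilter atImInfty (0 : ℂ)
    | insert a s ha ih =>
      rw [Finset.sum_insert ha]
      exact ((bdd_QE_slash M _ g).const_smul_left _).add ih
  exact this _

theorem mdiff_VE (b : ZMod M) : MDiff (VE M b) := by
  have h : VE M b = (120 : ℂ) • ∑ a : ZMod M, zpw M (-(a * b)) • QE M ![0, a] := by
    funext τ
    simp only [VE, Pi.smul_apply, Finset.sum_apply, smul_eq_mul]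
  rw [h]
  suffices h2 : MDiff (∑ a : ZMod M, zpw M (-(a * b)) • QE M ![0, a]) from h2.const_smul _
  have : ∀ s : Finset (ZMod M), MDiff (∑ a ∈ s, zpw M (-(a * b)) • QE M ![0, a]) := by
    intro s
    induction s using Finset.induction_on with
    | empty =>
      rw [Finset.sum_empty]
      exact (mdifferentiable_const : MDiff (fun _ : ℍ => (0 : ℂ)))
    | insert a s ha ih =>
      rw [Finset.sum_insert ha]
      exact ((mdiff_QE M _).const_smul _).add ih
  exact this _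

end EisSL

end Fermat.Agent.S48.M
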