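import Fermat.Agent.S48.M.Eis.Zpw
import Fermat.Agent.S48.M.Eis.SL
import Fermat.Agent.S48.M.Eis.Grp

/-!
# S48 / M / Eis / MF : `VE M b (e τ)` is a modular form of weight 4 on `GG M R`, `e ∣ R`   [key S48/M-EIS-MFSC, helper20]

`VE M b ∘ scaleH e = (120 cQE M) • ES.wEis 4 (wtV M (M e) b)`, `wtV M K b x = [K ∣ x₀] ζ^{-x₁ b}`.
-/

set_option autoImplicit false

open UpperHalfPlane ModularForm EisensteinSeries CongruenceSubgroup Fermat.Agent.S24 Fermat.Agent.ES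
open scoped MatrixGroups Manifold Matrix Real

noncomputable section

namespace Fermat.Agent.S48.M

variable (M : ℕ) [NeZero M]

/-- the weight `[K ∣ x₀] ζ^{-x₁ b}` -/
def wtV (K : ℕ) (b : ZMod M) (x : Fin 2 → ℤ) : ℂ :=
  if (K : ℤ) ∣ x 0 then zpw M (-(((x 1 : ℤ) : ZMod M) * b)) else 0

theorem norm_wtV_le (K : ℕ) (b : ZMod M) (x : Fin 2 → ℤ) : ‖wtV M K b x‖ ≤ 1 := by
  unfold wtV
  split_ifs
  · exact (norm_zpw M _).le
  · simp

theorem wEis_neg (W : (Fin 2 → ℤ) → ℂ) : wEis 4 (fun x => W (-x)) = wEis 4 W := by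
  funext z
  rw [wEis, wEis, ← (Equiv.neg (Fin 2 → ℤ)).tsum_eq (fun x => W x * eisSummand 4 x z)]
  refine tsum_congr fun x => ?_
  have h2 : eisSummand 4 (Equiv.neg (Fin 2 → ℤ) x) z = eisSummand 4 x z := by
    simp only [eisSummand, Equiv.neg_apply, Pi.neg_apply, Int.cast_neg]
    have : -(x 0 : ℂ) * (z : ℂ) + -(x 1 : ℂ) = -((x 0 : ℂ) * (z : ℂ) + (x 1 : ℂ)) := by ring
    rw [this]
    exact (Even.neg_zpow (by decide) _)
  rw [h2]
  rfl

theorem wEis_sum {ι : Type} (s : Finset ι) (c : ι → ℂ) (W : ι → (Fin 2 → ℤ) → ℂ)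
    (hW : ∀ i x, ‖W i x‖ ≤ 1) (z : ℍ) :
    wEis 4 (fun x => ∑ i ∈ s, c i * W i x) z = ∑ i ∈ s, c i * wEis 4 (W i) z := by
  simp only [wEis, Finset.sum_mul]
  rw [Summable.tsum_finsetSum fun i _ => by
    have := (summable_term (k := 4) (by norm_num) (hW i) z).mul_left (c i)
    simpa only [mul_assoc] using this]
  refine Finset.sum_congr rfl fun i _ => ?_
  rw [← tsum_mul_left]
  simp only [mul_assoc]

theorem sum_zpw_indW (b : ZMod M) (x : Fin 2 → ℤ) :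
    ∑ a : ZMod M, zpw M (-(a * b)) * indW M ![0, a] x = wtV M M b x := by
  unfold wtV indW
  have key : ∀ a : ZMod M, redV M x = ![0, a] ↔ ((M : ℤ) ∣ x 0 ∧ ((x 1 : ℤ) : ZMod M) = a) := by
    intro a
    rw [← ZMod.intCast_zmod_eq_zero_iff_dvd]
    constructor
    · intro h
      exact ⟨congrFun h 0, congrFun h 1⟩
    · rintro ⟨h0, h1⟩
      funext i
      fin_cases i
      · exact h0
      · exact h1
  simp only [key]
  by_cases h : (M : ℤ) ∣ x 0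
  · simp only [h, true_and, if_true, mul_ite, mul_one, mul_zero]
    rw [Finset.sum_ite_eq]
    simp
  · simp [h]

theorem VE_eq_wEis (b : ZMod M) : VE M b = (120 * cQE M) • wEis 4 (wtV M M b) := by
  funext z
  have h := wEis_sum Finset.univ (fun a : ZMod M => zpw M (-(a * b))) (fun a => indW M ![0, a])
    (fun a x => EisSL.norm_indW_le M _ x) z
  simp only [sum_zpw_indW] at h
  show 120 * ∑ a : ZMod M, zpw M (-(a * b)) * QE M ![0, a] z = (120 * cQE M) * wEis 4 (wtV M M b) z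
  have e : wEis 4 (fun x => wtV M M b x) z = wEis 4 (wtV M M b) z := rfl
  rw [← e, h, mul_assoc, Finset.mul_sum (a := cQE M)]
  congr 1
  refine Finset.sum_congr rfl fun a _ => ?_
  show _ * (cQE M * wEis 4 (indW M ![0, a]) z) = _
  ring

theorem wEis_scale (W : (Fin 2 → ℤ) → ℂ) (e : ℕ) [NeZero e] (τ : ℍ) :
    wEis 4 W (scaleH e τ) =
      wEis 4 (fun x => if (e : ℤ) ∣ x 0 then W ![x 0 / e, x 1] else 0) τ := by
  have he : (e : ℤ) ≠ 0 := by exact_mod_cast NeZero.ne e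
  let φ : (Fin 2 → ℤ) → (Fin 2 → ℤ) := fun x => ![(e : ℤ) * x 0, x 1]
  have hφ : Function.Injective φ := by
    intro x y h
    funext i
    fin_cases i
    · exact mul_left_cancel₀ he (congrFun h 0)
    · exact congrFun h 1
  have key := hφ.tsum_eq (f := fun x : Fin 2 → ℤ =>
      (if (e : ℤ) ∣ x 0 then W ![x 0 / e, x 1] else 0) * eisSummand 4 x τ) (by
    intro x hx
    by_cases h : (e : ℤ) ∣ x 0
    · obtain ⟨c, hc⟩ := h
      refine ⟨![c, x 1], ?_⟩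
      funext i
      fin_cases i
      · exact hc.symm
      · rfl
    · exfalso
      apply hx
      simp [h])
  rw [wEis, wEis, ← key]
  refine tsum_congr fun x => ?_
  have h1 : (e : ℤ) ∣ φ x 0 := ⟨x 0, rfl⟩
  have h2 : ![φ x 0 / (e : ℤ), φ x 1] = x := by
    funext i
    fin_cases i
    · exact Int.mul_ediv_cancel_left _ he
    · rfl
  rw [if_pos h1, h2]
  congr 1
  simp only [eisSummand, φ, coe_scaleH]
  simp only [Matrix.cons_val_zero, Matrix.cons_val_one]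
  push_cast
  ring_nf

theorem VE_scale_eq_wEis (b : ZMod M) (e : ℕ) [NeZero e] :
    VE M b ∘ scaleH e = (120 * cQE M) • wEis 4 (wtV M (M * e) b) := by
  funext τ
  have he : (e : ℤ) ≠ 0 := by exact_mod_cast NeZero.ne e
  show VE M b (scaleH e τ) = (120 * cQE M) * wEis 4 (wtV M (M * e) b) τ
  rw [VE_eq_wEis]
  show (120 * cQE M) * wEis 4 (wtV M M b) (scaleH e τ) = _
  rw [wEis_scale]
  congr 2
  funext x
  unfold wtV
  by_cases h : (e : ℤ) ∣ x 0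
  · obtain ⟨c, hc⟩ := h
    have h1 : (e : ℤ) ∣ x 0 := ⟨c, hc⟩
    have h2 : x 0 / (e : ℤ) = c := by rw [hc]; exact Int.mul_ediv_cancel_left _ he
    have h3 : ((M * e : ℕ) : ℤ) ∣ x 0 ↔ (M : ℤ) ∣ c := by
      rw [hc]; push_cast
      rw [mul_comm (M : ℤ)]
      exact mul_dvd_mul_iff_left he
    simp only [h1, if_true, Matrix.cons_val_zero, Matrix.cons_val_one, h2, h3]
  · have h3 : ¬ ((M * e : ℕ) : ℤ) ∣ x 0 := fun h' => h ((Dvd.intro_left _ (by push_cast; rfl)).trans h')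
    simp only [h, h3, if_false]

theorem wtV_neg (K : ℕ) (b : ZMod M) (x : Fin 2 → ℤ) :
    wtV M K b (-x) = if (K : ℤ) ∣ x 0 then zpw M (((x 1 : ℤ) : ZMod M) * b) else 0 := by
  unfold wtV
  simp only [Pi.neg_apply, dvd_neg, Int.cast_neg, neg_mul, neg_neg]

theorem wtV_vecMul_inv (K R : ℕ) (hK : M ∣ K) (hR : K ∣ M * R) (b : ZMod M) {g : SL(2, ℤ)}
    (hg : g ∈ GG M R) :
    (fun x : Fin 2 → ℤ => wtV M K b (x ᵥ* ((g⁻¹ : SL(2, ℤ)) : Matrix (Fin 2) (Fin 2) ℤ))) = wtV M K b ∨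
    (fun x : Fin 2 → ℤ => wtV M K b (x ᵥ* ((g⁻¹ : SL(2, ℤ)) : Matrix (Fin 2) (Fin 2) ℤ))) =
      fun x => wtV M K b (-x) := by
  obtain ⟨hg0, hg1⟩ := hg
  rw [Gamma0_mem, ZMod.intCast_zmod_eq_zero_iff_dvd] at hg0
  have hKc : (K : ℤ) ∣ g 1 0 := (Int.natCast_dvd_natCast.mpr hR).trans hg0
  have hMc : (M : ℤ) ∣ g 1 0 := (Int.natCast_dvd_natCast.mpr hK).trans hKc
  have hdet := g.det_coe
  rw [Matrix.det_fin_two] at hdet
  have hcop : IsCoprime (K : ℤ) (g 1 1) := by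
    obtain ⟨t, ht⟩ := hKc
    exact ⟨-(g 0 1 * t), g 0 0, by rw [ht] at hdet; linarith⟩
  have hx0 : ∀ x : Fin 2 → ℤ, (x ᵥ* ((g⁻¹ : SL(2, ℤ)) : Matrix (Fin 2) (Fin 2) ℤ)) 0 =
      x 0 * g 1 1 - x 1 * g 1 0 := by
    intro x
    rw [Matrix.SpecialLinearGroup.SL2_inv_expl]
    simp [Matrix.vecMul, dotProduct, Fin.sum_univ_two]
    ring
  have hx1 : ∀ x : Fin 2 → ℤ, (x ᵥ* ((g⁻¹ : SL(2, ℤ)) : Matrix (Fin 2) (Fin 2) ℤ)) 1 =
      -(x 0 * g 0 1) + x 1 * g 0 0 := by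
    intro x
    rw [Matrix.SpecialLinearGroup.SL2_inv_expl]
    simp [Matrix.vecMul, dotProduct, Fin.sum_univ_two]
  have hdvd : ∀ x : Fin 2 → ℤ, (K : ℤ) ∣ x 0 * g 1 1 - x 1 * g 1 0 ↔ (K : ℤ) ∣ x 0 := by
    intro x
    rw [dvd_sub_left (hKc.mul_left _)]
    exact ⟨fun h => hcop.dvd_of_dvd_mul_right h, fun h => h.mul_right _⟩
  have hc0 : ((g 1 0 : ℤ) : ZMod M) = 0 := (ZMod.intCast_zmod_eq_zero_iff_dvd _ _).mpr hMc
  have hdet2 : ((g 0 0 : ℤ) : ZMod M) * ((g 1 1 : ℤ) : ZMod M) = 1 := by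
    have h2 := congrArg (Int.cast : ℤ → ZMod M) hdet
    push_cast at h2
    rw [hc0, mul_zero, sub_zero] at h2
    exact h2
  have hcast : ∀ x : Fin 2 → ℤ, (K : ℤ) ∣ x 0 →
      ((-(x 0 * g 0 1) + x 1 * g 0 0 : ℤ) : ZMod M) = ((x 1 : ℤ) : ZMod M) * ((g 0 0 : ℤ) : ZMod M) := by
    intro x hx
    have : ((x 0 : ℤ) : ZMod M) = 0 :=
      (ZMod.intCast_zmod_eq_zero_iff_dvd _ _).mpr ((Int.natCast_dvd_natCast.mpr hK).trans hx)
    push_cast
    rw [this]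
    ring
  rcases hg1 with hg1 | hg1
  · left
    have ha : ((g 0 0 : ℤ) : ZMod M) = 1 := by rw [hg1, mul_one] at hdet2; exact hdet2
    funext x
    unfold wtV
    rw [hx0, hx1]
    by_cases h : (K : ℤ) ∣ x 0
    · rw [if_pos ((hdvd x).mpr h), if_pos h, hcast x h, ha, mul_one]
    · rw [if_neg (fun h' => h ((hdvd x).mp h')), if_neg h]
  · right
    have ha : ((g 0 0 : ℤ) : ZMod M) = -1 := by
      rw [hg1, mul_neg, mul_one] at hdet2; rw [← hdet2, neg_neg]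
    funext x
    rw [wtV_neg]
    unfold wtV
    rw [hx0, hx1]
    by_cases h : (K : ℤ) ∣ x 0
    · rw [if_pos ((hdvd x).mpr h), if_pos h, hcast x h, ha]
      congr 1
      ring
    · rw [if_neg (fun h' => h ((hdvd x).mp h')), if_neg h]

theorem isMF_wtV (K R : ℕ) (hK : M ∣ K) (hR : K ∣ M * R) (b : ZMod M) :
    S20.IsMF (GG M R) 4 ((120 * cQE M) • wEis 4 (wtV M K b)) := by
  refine S20.IsMF.smul _ ⟨mdifferentiable_wEis (by norm_num) (norm_wtV_le M K b), fun g hg => ?_,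
    fun g => isBoundedAtImInfty_wEis_slash (by norm_num) (norm_wtV_le M K b) g⟩
  rw [wEis_slash]
  rcases wtV_vecMul_inv M K R hK hR b hg with h | h
  · rw [h]
  · rw [h, wEis_neg]

/-- `VE M b (e τ)` is a modular form of weight 4 on `GG M R`, `e ∣ R` -/
theorem isMF_VE_scale (R e : ℕ) [NeZero e] (he : e ∣ R) (b : ZMod M) :
    S20.IsMF (GG M R) 4 (VE M b ∘ scaleH e) := by
  rw [VE_scale_eq_wEis]
  exact isMF_wtV M (M * e) R (dvd_mul_right M e) (mul_dvd_mul_left M he) b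

theorem isMF_VE (R : ℕ) (b : ZMod M) : S20.IsMF (GG M R) 4 (VE M b) := by
  rw [VE_eq_wEis]
  exact isMF_wtV M M R dvd_rfl (dvd_mul_right M R) b

instance instFiniteIndexGG (R : ℕ) [NeZero R] : (GG M R).FiniteIndex :=
  haveI : NeZero (M * R) := ⟨mul_ne_zero (NeZero.ne M) (NeZero.ne R)⟩
  Subgroup.finiteIndex_of_le (EisGrp.Gamma_le M R)

end Fermat.Agent.S48.M
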