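import Fermat.Agent.S48.M.Eis.Defs
import Fermat.Agent.S48.Z.Lambert

/-!
# S48 / layer M / EIS : the `q_M`-expansion of `QE M v`   (key S48/M-EIS-QEXP, helper21)
Rows of the absolutely convergent double series, Lipschitz formula (`EisensteinSeries.qExpansion_identity_pnat`), Lambert rearrangement.
-/

set_option autoImplicit false

open UpperHalfPlane hiding I
open Complex EisensteinSeries
open scoped Real

noncomputable section

namespace Fermat.Agent.S48.M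

/-- Lambert rearrangement, from summability -/
theorem qxAux_lambert (c : ℕ → ℕ → ℂ) {x : ℂ}
    (hs : Summable (fun p : ℕ+ × ℕ+ => c p.1 p.2 * x ^ ((p.1 : ℕ) * (p.2 : ℕ)))) :
    HasSum (fun n : ℕ => (if n = 0 then 0 else ∑ d ∈ n.divisors, c d (n / d)) * x ^ n)
      (∑' p : ℕ+ × ℕ+, c p.1 p.2 * x ^ ((p.1 : ℕ) * (p.2 : ℕ))) := by
  have h1 := hs.hasSum
  rw [← sigmaAntidiagonalEquivProd.hasSum_iff] at h1
  have h2 := h1.sigma (g := fun n : ℕ+ => (∑ d ∈ (n : ℕ).divisors, c d ((n : ℕ) / d)) * x ^ (n : ℕ))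
    (fun n => by
      have h3 := hasSum_fintype (fun y : Nat.divisorsAntidiagonal (n : ℕ) =>
        ((fun p : ℕ+ × ℕ+ => c p.1 p.2 * x ^ ((p.1 : ℕ) * (p.2 : ℕ))) ∘
          sigmaAntidiagonalEquivProd) ⟨n, y⟩)
      convert h3 using 1
      simp only [sigmaAntidiagonalEquivProd, divisorsAntidiagonalFactors, PNat.mk_coe,
        Equiv.coe_fn_mk, Function.comp_apply, Finset.univ_eq_attach]
      rw [(n : ℕ).divisorsAntidiagonal.sum_attach (fun y : ℕ × ℕ => c y.1 y.2 * x ^ (y.1 * y.2)),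
        Nat.sum_divisorsAntidiagonal (fun d k => c d k * x ^ (d * k)), Finset.sum_mul]
      refine Finset.sum_congr rfl fun d hd => ?_
      rw [Nat.mul_div_cancel' (Nat.dvd_of_mem_divisors hd)])
  rw [← PNat.coe_injective.hasSum_iff]
  · refine h2.congr_fun fun n => ?_
    simp only [Function.comp_apply, n.ne_zero, if_false]
  · intro n hn
    have : n = 0 := by
      by_contra h0
      exact hn ⟨⟨n, Nat.pos_of_ne_zero h0⟩, rfl⟩
    simp [this]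

theorem qxAux_zpw_eq (M : ℕ) [NeZero M] (t : ZMod M) (j : ℤ) (h : (j : ZMod M) = t) :
    zpw M t = cexp (2 * π * I * j / M) := by
  have hM : (M : ℂ) ≠ 0 := by exact_mod_cast NeZero.ne M
  have h1 : ((t.val : ℤ) : ZMod M) = (j : ZMod M) := by
    rw [h]; simp
  obtain ⟨c, hc⟩ := (ZMod.intCast_eq_intCast_iff_dvd_sub _ _ _).mp h1
  have hj : (j : ℂ) = t.val + M * c := by
    have : j = t.val + M * c := by linarith
    exact_mod_cast this
  rw [zpw, ← Complex.exp_nat_mul, hj]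
  have e : 2 * π * I * ((t.val : ℂ) + M * c) / M = (t.val : ℂ) * (2 * π * I / M) + c * (2 * π * I) := by
    field_simp
  rw [e, Complex.exp_add, Complex.exp_int_mul_two_pi_mul_I, mul_one]

theorem qxAux_norm_zpw (M : ℕ) (t : ZMod M) : ‖zpw M t‖ = 1 := by
  have : (2 * π * I / M : ℂ) = ((2 * π / M : ℝ) : ℂ) * I := by
    push_cast; ring
  rw [zpw, norm_pow, this, norm_exp_ofReal_mul_I, one_pow]

variable (M : ℕ) [NeZero M]

/-- one row -/
theorem qxAux_row (τ : ℍ) (m : ℕ+) (u : ZMod M) :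
    cQE M * ∑' n : ℤ, (if (n : ZMod M) = u then ((((m : ℕ) : ℂ) * (τ : ℂ) + n) ^ 4)⁻¹ else 0) =
      ∑' k : ℕ+, ((k : ℕ) : ℂ) ^ 3 * zpw M (u * ((k : ℕ) : ZMod M)) *
        cexp (2 * π * I * τ / M) ^ ((k : ℕ) * (m : ℕ)) := by
  have hMpos : 0 < M := Nat.pos_of_ne_zero (NeZero.ne M)
  have hMR : (0 : ℝ) < M := by exact_mod_cast hMpos
  have hM : (M : ℂ) ≠ 0 := by exact_mod_cast NeZero.ne M
  have hpi : (2 * π * I : ℂ) ≠ 0 := by
    simp [Real.pi_ne_zero, I_ne_zero]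
  have hinj : Function.Injective (fun n' : ℤ => (u.val : ℤ) + M * n') := by
    intro a b h
    have h' : (M : ℤ) * a = M * b := by simpa using h
    exact mul_left_cancel₀ (by exact_mod_cast NeZero.ne M) h'
  have hsupp : Function.support (fun n : ℤ => (if (n : ZMod M) = u then
      ((((m : ℕ) : ℂ) * (τ : ℂ) + n) ^ 4)⁻¹ else 0)) ⊆ Set.range (fun n' : ℤ => (u.val : ℤ) + M * n') := by
    intro n hn
    have h1 : (n : ZMod M) = u := by
      by_contra h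
      apply hn
      simp [h]
    have h2 : ((u.val : ℤ) : ZMod M) = (n : ZMod M) := by rw [h1]; simp
    obtain ⟨c, hc⟩ := (ZMod.intCast_eq_intCast_iff_dvd_sub _ _ _).mp h2
    exact ⟨c, by simp only; linarith⟩
  rw [← hinj.tsum_eq hsupp]
  have him : 0 < ((((m : ℕ) : ℂ) * (τ : ℂ) + u.val) / M).im := by
    rw [Complex.div_natCast_im]
    have h1 : (((m : ℕ) : ℂ) * (τ : ℂ) + u.val).im = (m : ℕ) * τ.im := by
      rw [Complex.add_im, Complex.natCast_im, add_zero, Complex.mul_im, Complex.natCast_im,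
        Complex.natCast_re, zero_mul, add_zero]
      rfl
    rw [h1]
    have := τ.im_pos
    have : (0 : ℝ) < (m : ℕ) := by exact_mod_cast m.pos
    positivity
  have hid := EisensteinSeries.qExpansion_identity_pnat (k := 3) (by norm_num)
    ⟨(((m : ℕ) : ℂ) * (τ : ℂ) + u.val) / M, him⟩
  have e1 : ∀ n' : ℤ, (if ((((u.val : ℤ) + M * n' : ℤ)) : ZMod M) = u then
      ((((m : ℕ) : ℂ) * (τ : ℂ) + (((u.val : ℤ) + M * n' : ℤ))) ^ 4)⁻¹ else 0) =
      ((M : ℂ) ^ 4)⁻¹ * (1 / ((((m : ℕ) : ℂ) * (τ : ℂ) + u.val) / M + n') ^ (3 + 1)) := by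
    intro n'
    rw [if_pos (by simp)]
    have : (((m : ℕ) : ℂ) * (τ : ℂ) + (((u.val : ℤ) + M * n' : ℤ))) =
        M * ((((m : ℕ) : ℂ) * (τ : ℂ) + u.val) / M + n') := by
      push_cast
      field_simp
      ring
    rw [this, mul_pow, mul_inv, one_div]
  rw [tsum_congr e1, tsum_mul_left]
  have hid' : ∑' n' : ℤ, 1 / ((((m : ℕ) : ℂ) * (τ : ℂ) + u.val) / M + n') ^ (3 + 1) = _ := hid
  rw [hid', ← tsum_mul_left, ← tsum_mul_left, ← tsum_mul_left]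
  refine tsum_congr fun k => ?_
  have e2 : cexp (2 * π * I * ((((m : ℕ) : ℂ) * (τ : ℂ) + u.val) / M)) ^ (k : ℕ) =
      zpw M (u * ((k : ℕ) : ZMod M)) * cexp (2 * π * I * τ / M) ^ ((k : ℕ) * (m : ℕ)) := by
    rw [qxAux_zpw_eq M (u * ((k : ℕ) : ZMod M)) ((u.val : ℤ) * (k : ℕ)) (by simp),
      ← Complex.exp_nat_mul, ← Complex.exp_nat_mul, ← Complex.exp_add]
    congr 1
    push_cast
    field_simp
    ring
  show cQE M * (((M : ℂ) ^ 4)⁻¹ * ((-2 * π * I) ^ (3 + 1) / (Nat.factorial 3 : ℕ) *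
    (((k : ℕ) : ℂ) ^ 3 * cexp (2 * π * I * ((((m : ℕ) : ℂ) * (τ : ℂ) + u.val) / M)) ^ (k : ℕ)))) = _
  rw [e2, cQE]
  have h6 : ((Nat.factorial 3 : ℕ) : ℂ) = 6 := by norm_num [Nat.factorial]
  rw [h6]
  field_simp
  ring

omit [NeZero M] in
/-- a Lambert family with weights `k³`, summed by rows -/
theorem qxAux_sum (g : ℕ → ℂ) (hg : ∀ k, ‖g k‖ ≤ 1) (P : ℕ → Prop) [DecidablePred P] {X : ℂ}
    (hX : ‖X‖ < 1) :
    Summable (fun p : ℕ+ × ℕ+ => (((p.1 : ℕ) : ℂ) ^ 3 * (if P p.2 then g p.1 else 0)) *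
      X ^ ((p.1 : ℕ) * (p.2 : ℕ))) ∧
    ∑' p : ℕ+ × ℕ+, (((p.1 : ℕ) : ℂ) ^ 3 * (if P p.2 then g p.1 else 0)) * X ^ ((p.1 : ℕ) * (p.2 : ℕ)) =
      ∑' m : ℕ+, (if P m then ∑' k : ℕ+, ((k : ℕ) : ℂ) ^ 3 * g k * X ^ ((k : ℕ) * (m : ℕ)) else 0) := by
  have h0 := ((summable_prod_mul_pow (𝕜 := ℂ) 3 hX).norm)
  have h1 : Summable (fun p : ℕ+ × ℕ+ => ‖((p.1 : ℕ) : ℂ) ^ 3 * X ^ ((p.2 : ℕ) * (p.1 : ℕ))‖) := by
    have := h0.comp_injective (Prod.swap_injective (α := ℕ+) (β := ℕ+))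
    simpa [Function.comp_def] using this
  have hs : Summable (fun p : ℕ+ × ℕ+ => (((p.1 : ℕ) : ℂ) ^ 3 * (if P p.2 then g p.1 else 0)) *
      X ^ ((p.1 : ℕ) * (p.2 : ℕ))) := by
    refine Summable.of_norm_bounded h1 fun p => ?_
    rw [norm_mul, norm_mul, norm_mul, mul_comm (p.2 : ℕ) (p.1 : ℕ)]
    have h2 : ‖(if P p.2 then g p.1 else 0 : ℂ)‖ ≤ 1 := by
      split_ifs
      · exact hg _
      · simp
    calc ‖((p.1 : ℕ) : ℂ) ^ 3‖ * ‖(if P p.2 then g p.1 else 0 : ℂ)‖ * ‖X ^ ((p.1 : ℕ) * (p.2 : ℕ))‖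
        ≤ ‖((p.1 : ℕ) : ℂ) ^ 3‖ * 1 * ‖X ^ ((p.1 : ℕ) * (p.2 : ℕ))‖ := by gcongr
      _ = ‖((p.1 : ℕ) : ℂ) ^ 3‖ * ‖X ^ ((p.1 : ℕ) * (p.2 : ℕ))‖ := by rw [mul_one]
  refine ⟨hs, ?_⟩
  have hs' : Summable (fun p : ℕ+ × ℕ+ => (((p.2 : ℕ) : ℂ) ^ 3 * (if P p.1 then g p.2 else 0)) *
      X ^ ((p.2 : ℕ) * (p.1 : ℕ))) := by
    have := hs.comp_injective (Prod.swap_injective (α := ℕ+) (β := ℕ+))
    simpa only [Function.comp_def, Prod.fst_swap, Prod.snd_swap] using this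
  have e0 : ∑' p : ℕ+ × ℕ+, (((p.1 : ℕ) : ℂ) ^ 3 * (if P p.2 then g p.1 else 0)) *
      X ^ ((p.1 : ℕ) * (p.2 : ℕ)) = ∑' p : ℕ+ × ℕ+, (((p.2 : ℕ) : ℂ) ^ 3 *
      (if P p.1 then g p.2 else 0)) * X ^ ((p.2 : ℕ) * (p.1 : ℕ)) :=
    ((Equiv.prodComm ℕ+ ℕ+).tsum_eq (fun p : ℕ+ × ℕ+ => (((p.1 : ℕ) : ℂ) ^ 3 *
      (if P p.2 then g p.1 else 0)) * X ^ ((p.1 : ℕ) * (p.2 : ℕ)))).symm
  rw [e0, Summable.tsum_prod' hs' (fun m => hs'.prod_factor m)]
  refine tsum_congr fun m => ?_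
  split_ifs with h
  · rfl
  · simp

theorem hasSum_QE' (v : Fin 2 → ZMod M) (τ : ℍ) :
    HasSum (fun n : ℕ => qeC M v n * Complex.exp (2 * π * Complex.I * τ / M) ^ n) (QE M v τ) := by
  have hMpos : 0 < M := Nat.pos_of_ne_zero (NeZero.ne M)
  have hMR : (0 : ℝ) < M := by exact_mod_cast hMpos
  set X := cexp (2 * π * I * τ / M) with hXdef
  have hX : ‖X‖ < 1 := Function.Periodic.norm_qParam_lt_one hMR τ.im_pos
  -- the double series
  have hw : ∀ x, ‖indW M v x‖ ≤ 1 := by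
    intro x
    unfold indW
    split_ifs <;> simp
  have hsum := ES.summable_term (k := 4) (by norm_num) hw τ
  have hsum' : Summable (fun p : ℤ × ℤ => indW M v ![p.1, p.2] * eisSummand 4 ![p.1, p.2] τ) :=
    (finTwoArrowEquiv ℤ).symm.summable_iff.mpr hsum
  have hF : ∀ m n : ℤ, indW M v ![m, n] * eisSummand 4 ![m, n] τ =
      if (m : ZMod M) = v 0 then (if (n : ZMod M) = v 1 then (((m : ℂ) * τ + n) ^ 4)⁻¹ else 0)
      else 0 := by
    intro m n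
    have e1 : redV M ![m, n] = v ↔ ((m : ZMod M) = v 0 ∧ (n : ZMod M) = v 1) := by
      constructor
      · intro h
        exact ⟨by rw [← h]; rfl, by rw [← h]; rfl⟩
      · rintro ⟨h0, h1⟩
        funext i
        fin_cases i
        · exact h0
        · exact h1
    have e2 : eisSummand 4 ![m, n] τ = (((m : ℂ) * τ + n) ^ 4)⁻¹ := by
      simp only [eisSummand, Matrix.cons_val_zero, Matrix.cons_val_one, Matrix.cons_val_fin_one]
      rw [zpow_neg]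
      norm_cast
    unfold indW
    rw [e2]
    by_cases h0 : (m : ZMod M) = v 0
    · by_cases h1 : (n : ZMod M) = v 1
      · rw [if_pos (e1.mpr ⟨h0, h1⟩), if_pos h0, if_pos h1, one_mul]
      · rw [if_neg (fun h => h1 (e1.mp h).2), if_pos h0, if_neg h1, zero_mul]
    · rw [if_neg (fun h => h0 (e1.mp h).1), if_neg h0, zero_mul]
  set R : ℤ → ℂ := fun m => ∑' n : ℤ, (if (m : ZMod M) = v 0 then
    (if (n : ZMod M) = v 1 then (((m : ℂ) * τ + n) ^ 4)⁻¹ else 0) else 0) with hRdef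
  have hRs : Summable R := by
    have := hsum'.prod
    refine this.congr fun m => ?_
    exact tsum_congr fun n => hF m n
  have hQE : QE M v τ = cQE M * ∑' m : ℤ, R m := by
    show cQE M * ES.wEis 4 (indW M v) τ = _
    rw [ES.wEis, ← (finTwoArrowEquiv ℤ).symm.tsum_eq]
    have := Summable.tsum_prod' hsum' (fun m => hsum'.prod_factor m)
    congr 1
    refine Eq.trans this ?_
    exact tsum_congr fun m => tsum_congr fun n => hF m n
  have hR0 : cQE M * R 0 = qeC M v 0 := by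
    simp only [hRdef, qeC, if_true, Int.cast_zero, zero_mul, zero_add]
    by_cases h : v 0 = 0
    · simp [h]
    · have h' : ¬ (0 : ZMod M) = v 0 := fun e => h e.symm
      simp [h, h']
  have hRp : ∀ m : ℕ+, cQE M * R ((m : ℕ) : ℤ) = if (((m : ℕ) : ℕ) : ZMod M) = v 0 then
      ∑' k : ℕ+, ((k : ℕ) : ℂ) ^ 3 * zpw M (v 1 * ((k : ℕ) : ZMod M)) * X ^ ((k : ℕ) * (m : ℕ)) else 0 := by
    intro m
    simp only [hRdef, Int.cast_natCast]
    split_ifs with h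
    · exact qxAux_row M τ m (v 1)
    · simp
  have hRn : ∀ m : ℕ+, cQE M * R (-((m : ℕ) : ℤ)) = if (((m : ℕ) : ℕ) : ZMod M) = - v 0 then
      ∑' k : ℕ+, ((k : ℕ) : ℂ) ^ 3 * zpw M (-(v 1 * ((k : ℕ) : ZMod M))) * X ^ ((k : ℕ) * (m : ℕ))
      else 0 := by
    intro m
    simp only [hRdef, Int.cast_neg, Int.cast_natCast]
    have e0 : (-(((m : ℕ) : ℕ) : ZMod M) = v 0) ↔ ((((m : ℕ) : ℕ) : ZMod M) = - v 0) := neg_eq_iff_eq_neg
    by_cases h : (((m : ℕ) : ℕ) : ZMod M) = - v 0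
    · rw [if_pos h]
      simp only [if_pos (e0.mpr h)]
      rw [← (Equiv.neg ℤ).tsum_eq]
      have := qxAux_row M τ m (- v 1)
      simp only [neg_mul] at this
      rw [← this]
      congr 1
      refine tsum_congr fun n => ?_
      simp only [Equiv.neg_apply, Int.cast_neg]
      have e1 : (-(n : ZMod M) = v 1) ↔ ((n : ZMod M) = - v 1) := neg_eq_iff_eq_neg
      simp only [e1]
      congr 2
      ring
    · rw [if_neg h]
      simp only [if_neg (fun e => h (e0.mp e))]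
      simp
  have hg1 : ∀ k : ℕ, ‖zpw M (v 1 * (k : ZMod M))‖ ≤ 1 := fun k => (qxAux_norm_zpw _ _).le
  have hg2 : ∀ k : ℕ, ‖zpw M (-(v 1 * (k : ZMod M)))‖ ≤ 1 := fun k => (qxAux_norm_zpw _ _).le
  have h1 := qxAux_sum (fun k : ℕ => zpw M (v 1 * (k : ZMod M))) hg1
    (fun m : ℕ => (m : ZMod M) = v 0) hX
  have h2 := qxAux_sum (fun k : ℕ => zpw M (-(v 1 * (k : ZMod M)))) hg2
    (fun m : ℕ => (m : ZMod M) = - v 0) hX
  set c : ℕ → ℕ → ℂ := fun k m => (k : ℂ) ^ 3 *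
    ((if (m : ZMod M) = v 0 then zpw M (v 1 * k) else 0) +
      (if (m : ZMod M) = - v 0 then zpw M (-(v 1 * k)) else 0)) with hcdef
  have hc : ∀ p : ℕ+ × ℕ+, c p.1 p.2 * X ^ ((p.1 : ℕ) * (p.2 : ℕ)) =
      (((p.1 : ℕ) : ℂ) ^ 3 * (if (((p.2 : ℕ) : ℕ) : ZMod M) = v 0 then
        zpw M (v 1 * ((p.1 : ℕ) : ZMod M)) else 0)) * X ^ ((p.1 : ℕ) * (p.2 : ℕ)) +
      (((p.1 : ℕ) : ℂ) ^ 3 * (if (((p.2 : ℕ) : ℕ) : ZMod M) = - v 0 then
        zpw M (-(v 1 * ((p.1 : ℕ) : ZMod M))) else 0)) * X ^ ((p.1 : ℕ) * (p.2 : ℕ)) := by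
    intro p
    simp only [hcdef]
    ring
  have hcs : Summable (fun p : ℕ+ × ℕ+ => c p.1 p.2 * X ^ ((p.1 : ℕ) * (p.2 : ℕ))) :=
    (h1.1.add h2.1).congr fun p => (hc p).symm
  have hL := qxAux_lambert c hcs
  have hval : QE M v τ = qeC M v 0 + ∑' p : ℕ+ × ℕ+, c p.1 p.2 * X ^ ((p.1 : ℕ) * (p.2 : ℕ)) := by
    rw [tsum_congr hc, h1.1.tsum_add h2.1, h1.2, h2.2, hQE, tsum_int_eq_zero_add_tsum_pnat hRs,
      mul_add, mul_add, hR0, ← tsum_mul_left, ← tsum_mul_left, tsum_congr hRp, tsum_congr hRn,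
      add_assoc]
  rw [hval]
  have h0 : HasSum (fun n : ℕ => (if n = 0 then qeC M v 0 else 0) * X ^ n) (qeC M v 0) := by
    have := hasSum_single (f := fun n : ℕ => (if n = 0 then qeC M v 0 else 0) * X ^ n)
      0 (by intro n hn; simp [hn])
    simpa using this
  convert h0.add hL using 2 with n
  by_cases hn : n = 0
  · simp [hn]
  · simp only [hn, if_false, zero_mul, zero_add]
    congr 1
    simp only [qeC, hn, if_false, hcdef]

end Fermat.Agent.S48.M
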