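import Fermat.Agent.S48.M.Eis.SL

/-!
# S48 / layer M / EIS : key SEP (helper29): separation of the conjugates `y_v` modulo a prime not dividing `n`

Abstract form: `Y : (Fin 2 → ZMod M) → AL n` any family with `g • Y v = Y (v g⁻¹)`, `Y 0 = 0` and
`coeff (-n + (n/M) m) (eps (Y v)) = M⁴ qeC M v m` for `m < M`, `v ≠ 0`.  (`IfEis.yA_sep` is the case `Y = yA M n hMn`.)
`v = (0,1) g₀`; `h = S⁻¹ g₀` moves `v` to `(1,0)`; `S28.smul_mem_Pr`; coefficient `m = 1`:
`qeC M (1,0) 1 = 1 + [1 = -1]`, `qeC M (c,d) 1 = [c = 1] ζ^d + [c = -1] ζ^{-d}`; `M`-th roots of unity are distinct mod `φ`.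
-/

set_option autoImplicit false

open UpperHalfPlane ModularForm ModularFormClass WithZero ModularCurve AlgebraicCurve CongruenceSubgroup
open Fermat.Agent.S24 Fermat.Agent.S29 Fermat.Agent.S28
open scoped MatrixGroups Manifold Real Matrix

noncomputable section

namespace Fermat.Agent.S48.M

namespace EisSep

variable (M : ℕ) [NeZero M]

theorem qeC_one (u : Fin 2 → ZMod M) :
    qeC M u 1 = (if (1 : ZMod M) = u 0 then zpw M (u 1) else 0) +
      (if (1 : ZMod M) = - u 0 then zpw M (-(u 1)) else 0) := by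
  rw [qeC, if_neg one_ne_zero, Nat.divisors_one, Finset.sum_singleton]
  simp

/-- `ζ_M` as an algebraic integer -/
def zZ : Zb :=
  ⟨Complex.exp (2 * π * Complex.I / M),
    (Complex.isPrimitiveRoot_exp M (NeZero.ne M)).isIntegral (Nat.pos_of_ne_zero (NeZero.ne M))⟩

theorem isPrimitiveRoot_zZ : IsPrimitiveRoot (zZ M) M :=
  IsPrimitiveRoot.coe_submonoidClass_iff.1 (Complex.isPrimitiveRoot_exp M (NeZero.ne M))

theorem coe_zZ_pow (t : ZMod M) : ((zZ M ^ t.val : Zb) : ℂ) = zpw M t := rfl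

open Polynomial in
theorem isPrimitiveRoot_map {Fb : Type} [Field Fb] (φ : Zb →+* Fb) (hM : (M : Fb) ≠ 0) :
    IsPrimitiveRoot (φ (zZ M)) M := by
  have : NeZero ((M : ℕ) : Fb) := ⟨hM⟩
  have h1 : (cyclotomic M Fb).IsRoot (φ (zZ M)) := by
    have h2 := (isPrimitiveRoot_zZ M).isRoot_cyclotomic (Nat.pos_of_ne_zero (NeZero.ne M))
    rw [IsRoot, ← map_cyclotomic M φ, eval_map, eval₂_hom, h2, map_zero]
  exact isRoot_cyclotomic_iff.1 h1

theorem eq_zero_of_map_pow {Fb : Type} [Field Fb] (φ : Zb →+* Fb) (hM : (M : Fb) ≠ 0) (t : ZMod M)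
    (h : φ (zZ M ^ t.val) = 1) : t = 0 := by
  rw [map_pow] at h
  have h1 := (isPrimitiveRoot_map M φ hM).dvd_of_pow_eq_one _ h
  have h2 : t.val = 0 := Nat.eq_zero_of_dvd_of_lt h1 (ZMod.val_lt t)
  exact (ZMod.val_eq_zero t).1 h2

theorem natCast_ne_zero {n : ℕ} {Fb : Type} [Field Fb] (φ : Zb →+* Fb)
    (hφ : ∀ r : ℕ, r.Prime → r ∣ n → φ (r : Zb) ≠ 0) (m : ℕ) (hm0 : m ≠ 0) (hm : m ∣ n) :
    (m : Fb) ≠ 0 := by
  induction m using Nat.recOnMul with
  | zero => exact absurd rfl hm0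
  | one => simp
  | prime p hp =>
    have := hφ p hp hm
    rwa [map_natCast] at this
  | mul a b iha ihb =>
    rw [Nat.cast_mul]
    exact mul_ne_zero (iha (left_ne_zero_of_mul hm0) (dvd_of_mul_right_dvd hm))
      (ihb (right_ne_zero_of_mul hm0) (dvd_of_mul_left_dvd hm))

/-- the coefficient `qeC M u 1` as an algebraic integer -/
def QZ (u : Fin 2 → ZMod M) : Zb :=
  (if (1 : ZMod M) = u 0 then zZ M ^ (u 1).val else 0) +
    (if (1 : ZMod M) = - u 0 then zZ M ^ (-(u 1)).val else 0)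

theorem coe_QZ (u : Fin 2 → ZMod M) : ((QZ M u : Zb) : ℂ) = qeC M u 1 := by
  rw [qeC_one, QZ, Subalgebra.coe_add]
  congr 1
  · by_cases h : (1 : ZMod M) = u 0
    · rw [if_pos h, if_pos h]; rfl
    · rw [if_neg h, if_neg h]; rfl
  · by_cases h : (1 : ZMod M) = - u 0
    · rw [if_pos h, if_pos h]; rfl
    · rw [if_neg h, if_neg h]; rfl

theorem map_QZ {Fb : Type} [Field Fb] (φ : Zb →+* Fb) (u : Fin 2 → ZMod M) :
    φ (QZ M u) = (if (1 : ZMod M) = u 0 then φ (zZ M ^ (u 1).val) else 0) +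
      (if (1 : ZMod M) = - u 0 then φ (zZ M ^ (-(u 1)).val) else 0) := by
  rw [QZ, map_add, apply_ite φ, apply_ite φ, map_zero]

/-- the arithmetic core -/
theorem core {Fb : Type} [Field Fb] (φ : Zb →+* Fb) (hM : (M : Fb) ≠ 0) (h1M : 1 < M)
    (u : Fin 2 → ZMod M) (h : φ (QZ M ![1, 0]) = φ (QZ M u)) : u = ![1, 0] ∨ u = - ![1, 0] := by
  have : Fact (1 < M) := ⟨h1M⟩
  rw [map_QZ, map_QZ] at h
  simp only [Matrix.cons_val_zero, Matrix.cons_val_one, neg_zero, ZMod.val_zero, pow_zero, map_one,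
    if_true] at h
  by_cases hc : (1 : ZMod M) = -1
  · rw [if_pos hc] at h
    have hneg : ∀ t : ZMod M, -t = t := by
      intro t
      calc -t = -1 * t := by ring
        _ = 1 * t := by rw [← hc]
        _ = t := one_mul t
    have h2 : (2 : Fb) ≠ 0 := by
      have h3 : ((2 : ℕ) : ZMod M) = 0 := by
        have : (1 : ZMod M) + 1 = 0 := by nth_rewrite 2 [hc]; ring
        rw [Nat.cast_ofNat, ← one_add_one_eq_two]; exact this
      have h4 : M ∣ 2 := (ZMod.natCast_eq_zero_iff 2 M).1 h3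
      have h5 : M = 2 := le_antisymm (Nat.le_of_dvd (by norm_num) h4) h1M
      rw [h5] at hM
      exact_mod_cast hM
    rw [hneg (u 0), hneg (u 1)] at h
    by_cases h0 : (1 : ZMod M) = u 0
    · rw [if_pos h0] at h
      have h6 : φ (zZ M ^ (u 1).val) = 1 := by
        have : (2 : Fb) * φ (zZ M ^ (u 1).val) = 2 * 1 := by linear_combination -h
        exact mul_left_cancel₀ h2 this
      left
      funext i
      fin_cases i
      · exact h0.symm
      · exact eq_zero_of_map_pow M φ hM _ h6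
    · rw [if_neg h0] at h
      exact absurd (by linear_combination h) h2
  · rw [if_neg hc, add_zero] at h
    by_cases h0 : (1 : ZMod M) = u 0
    · have h0' : ¬ (1 : ZMod M) = - u 0 := by rw [← h0]; exact hc
      rw [if_pos h0, if_neg h0', add_zero] at h
      left
      funext i
      fin_cases i
      · exact h0.symm
      · exact eq_zero_of_map_pow M φ hM _ h.symm
    · rw [if_neg h0, zero_add] at h
      by_cases h0' : (1 : ZMod M) = - u 0
      · rw [if_pos h0'] at h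
        right
        have h7 := eq_zero_of_map_pow M φ hM _ h.symm
        funext i
        fin_cases i
        · change u 0 = -1
          rw [h0', neg_neg]
        · change u 1 = -0
          rw [neg_zero]
          exact neg_eq_zero.1 h7
      · rw [if_neg h0'] at h
        exact absurd h one_ne_zero

variable (n : ℕ) [NeZero n]

/-- **separation**, abstract form -/
theorem sep (hMn : M ∣ n) (Y : (Fin 2 → ZMod M) → AL n)
    (hsmul : ∀ (g : SL(2, ℤ)) (v : Fin 2 → ZMod M), g • Y v = Y (vg M v g⁻¹)) (hzero : Y 0 = 0)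
    (hcoeff : ∀ v : Fin 2 → ZMod M, v ≠ 0 → ∀ m : ℕ, m < M →
      (((eps n (Y v)).coeff (-(n : ℤ) + ((n / M : ℕ) : ℤ) * m) : Zb) : ℂ) = (M : ℂ) ^ 4 * qeC M v m)
    {Fb : Type} [Field Fb] (φ : Zb →+* Fb)
    (hφ : ∀ r : ℕ, r.Prime → r ∣ n → φ (r : Zb) ≠ 0) (g₀ : SL(2, ℤ)) (w : Fin 2 → ZMod M)
    (h : red n φ (Y (vg M ![0, 1] g₀)) = red n φ (Y w)) :
    w = vg M ![0, 1] g₀ ∨ w = - vg M ![0, 1] g₀ := by
  rcases (Nat.one_le_iff_ne_zero.2 (NeZero.ne M)).eq_or_lt with h1 | h1M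
  · left
    have : Subsingleton (ZMod M) := by rw [← h1]; infer_instance
    exact Subsingleton.elim _ _
  have : Fact (1 < M) := ⟨h1M⟩
  have hM : (M : Fb) ≠ 0 := natCast_ne_zero φ hφ M (NeZero.ne M) hMn
  -- the coefficient
  have hco : ∀ u : Fin 2 → ZMod M,
      (eps n (Y u)).coeff (-(n : ℤ) + ((n / M : ℕ) : ℤ) * (1 : ℕ)) = (M : Zb) ^ 4 * QZ M u := by
    intro u
    by_cases hu : u = 0
    · rw [hu, hzero, map_zero, HahnSeries.coeff_zero]
      have : QZ M (0 : Fin 2 → ZMod M) = 0 := by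
        rw [QZ]
        simp
      rw [this, mul_zero]
    · apply Subtype.ext
      rw [hcoeff u hu 1 h1M, Subalgebra.coe_mul, coe_QZ]
      simp
  obtain ⟨hh, hhdef⟩ : ∃ hh : SL(2, ℤ), hh = ModularGroup.S⁻¹ * g₀ := ⟨_, rfl⟩
  have hinv : hh⁻¹ = g₀⁻¹ * ModularGroup.S := by rw [hhdef]; group
  have hv : vg M (vg M ![0, 1] g₀) hh⁻¹ = ![1, 0] := by
    rw [← EisSL.vg_mul, hinv, mul_inv_cancel_left, EisSL.vg_apply]
    simp [ModularGroup.S]
  have hmem : Y (vg M ![0, 1] g₀) - Y w ∈ Pr n φ := by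
    rw [mem_Pr, map_sub, h, sub_self]
  have h2 := smul_mem_Pr n φ hφ hh hmem
  rw [smul_sub, hsmul, hsmul, hv, mem_Pr, map_sub, sub_eq_zero] at h2
  have h3 := congrArg (fun s : LaurentSeries Fb => s.coeff (-(n : ℤ) + ((n / M : ℕ) : ℤ) * (1 : ℕ))) h2
  simp only [red_coeff] at h3
  rw [hco, hco, map_mul, map_mul, map_pow, map_natCast] at h3
  have h4 := mul_left_cancel₀ (pow_ne_zero 4 hM) h3
  have hback : ∀ u : Fin 2 → ZMod M, vg M (vg M u hh⁻¹) hh = u := by
    intro u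
    rw [← EisSL.vg_mul, inv_mul_cancel, EisSL.vg_one]
  rcases core M φ hM h1M _ h4 with h5 | h5
  · left
    rw [← hback w, h5, ← hv, hback]
  · right
    rw [← hback w, h5, EisSL.vg_neg, ← hv, hback]

end EisSep

end Fermat.Agent.S48.M
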