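import Fermat.Agent.S48.M.Eis.Zpw
import Fermat.Agent.S48.Z.Fam

/-!
# S48 / M / Eis / VE : the `q`-expansion of `VE M b`   [key S48/M-EIS-VE, helper24]

From `hasSum_QE` (hypothesis `hQ`) and the constant term formula CONST(i) (hypothesis `hC`).
-/

set_option autoImplicit false

open UpperHalfPlane ModularForm ModularFormClass
open Fermat.Agent.S24 Fermat.Agent.S29
open scoped Real

noncomputable section

namespace Fermat.Agent.S48.M

namespace EisVE

local notation "𝕢" => Function.Periodic.qParam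

variable (M : ℕ) [NeZero M]

/-- the `q_M`-coefficients of `VE M b` -/
def veD (b : ZMod M) (n : ℕ) : ℂ := 120 * ∑ a : ZMod M, zpw M (-(a * b)) * qeC M ![0, a] n

theorem hasSum_veD
    (hQ : ∀ (v : Fin 2 → ZMod M) (τ : ℍ),
      HasSum (fun n : ℕ => qeC M v n * Complex.exp (2 * π * Complex.I * τ / M) ^ n) (QE M v τ))
    (b : ZMod M) (τ : ℍ) :
    HasSum (fun n : ℕ => veD M b n * Complex.exp (2 * π * Complex.I * τ / M) ^ n) (VE M b τ) := by
  have h1 := (hasSum_sum (s := Finset.univ) (fun (a : ZMod M) _ =>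
    (hQ ![0, a] τ).mul_left (zpw M (-(a * b))))).mul_left 120
  have e : (fun n : ℕ => veD M b n * Complex.exp (2 * π * Complex.I * τ / M) ^ n) =
      fun n : ℕ => 120 * ∑ a : ZMod M, zpw M (-(a * b)) *
        (qeC M ![0, a] n * Complex.exp (2 * π * Complex.I * τ / M) ^ n) := by
    funext n
    rw [veD, mul_assoc, Finset.sum_mul]
    congr 1
    exact Finset.sum_congr rfl fun a _ => mul_assoc _ _ _
  rw [e]
  exact h1

/-- the indicator `[k ≡ b] + [k ≡ -b]` -/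
def ind2 (b : ZMod M) (k : ℕ) : ℂ :=
  (if (k : ZMod M) = b then 1 else 0) + (if (k : ZMod M) = -b then 1 else 0)

theorem sum_zpw_ind2 (b : ZMod M) (k : ℕ) :
    ∑ a : ZMod M, zpw M (-(a * b)) * (zpw M (a * k) + zpw M (-(a * k))) = M * ind2 M b k := by
  have h1 : ∀ a : ZMod M, zpw M (-(a * b)) * (zpw M (a * k) + zpw M (-(a * k))) =
      zpw M (((k : ZMod M) - b) * a) + zpw M ((-(k : ZMod M) - b) * a) := by
    intro a
    rw [mul_add, ← zpw_add, ← zpw_add]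
    congr 2 <;> ring
  rw [Finset.sum_congr rfl fun a _ => h1 a, Finset.sum_add_distrib, sum_zpw_mul, sum_zpw_mul, ind2,
    mul_add]
  congr 1
  · by_cases h : (k : ZMod M) = b
    · rw [if_pos h, if_pos (sub_eq_zero.2 h), mul_one]
    · rw [if_neg h, if_neg (fun h' => h (sub_eq_zero.1 h')), mul_zero]
  · by_cases h : (k : ZMod M) = -b
    · rw [if_pos h, if_pos (by rw [h]; ring), mul_one]
    · rw [if_neg h, if_neg (fun h' => h (by linear_combination -h')), mul_zero]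

theorem veD_of_ne (b : ZMod M) {n : ℕ} (hn : n ≠ 0) :
    veD M b n = 120 * M * ∑ k ∈ n.divisors, (k : ℂ) ^ 3 *
      (if ((n / k : ℕ) : ZMod M) = 0 then ind2 M b k else 0) := by
  have h1 : ∀ a : ZMod M, zpw M (-(a * b)) * qeC M ![0, a] n =
      ∑ k ∈ n.divisors, (k : ℂ) ^ 3 * (if ((n / k : ℕ) : ZMod M) = 0 then
        zpw M (-(a * b)) * (zpw M (a * k) + zpw M (-(a * k))) else 0) := by
    intro a
    rw [qeC, if_neg hn, Finset.mul_sum]
    refine Finset.sum_congr rfl fun k _ => ?_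
    rw [show (![0, a] : Fin 2 → ZMod M) 0 = 0 from rfl, show (![0, a] : Fin 2 → ZMod M) 1 = a from rfl,
      neg_zero]
    by_cases h : ((n / k : ℕ) : ZMod M) = 0
    · rw [if_pos h, if_pos h, if_pos h]; ring
    · rw [if_neg h, if_neg h, if_neg h]; ring
  rw [veD, Finset.sum_congr rfl fun a _ => h1 a, Finset.sum_comm, mul_assoc, Finset.mul_sum (a := (M : ℂ))]
  congr 1
  refine Finset.sum_congr rfl fun k _ => ?_
  rw [← Finset.mul_sum]
  by_cases h : ((n / k : ℕ) : ZMod M) = 0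
  · simp only [if_pos h]
    rw [sum_zpw_ind2]; ring
  · simp only [if_neg h]
    simp

theorem veD_of_not_dvd (b : ZMod M) {n : ℕ} (hn : ¬ M ∣ n) : veD M b n = 0 := by
  have hn0 : n ≠ 0 := by rintro rfl; exact hn (dvd_zero _)
  rw [veD_of_ne M b hn0, Finset.sum_eq_zero, mul_zero]
  intro k hk
  rw [if_neg, mul_zero]
  intro h
  rw [ZMod.natCast_eq_zero_iff] at h
  exact hn (h.trans (Nat.div_dvd_of_dvd (Nat.dvd_of_mem_divisors hk)))

theorem veD_mul (b : ZMod M) {m : ℕ} (hm : m ≠ 0) :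
    veD M b (M * m) = 120 * M * ∑ k ∈ m.divisors, (k : ℂ) ^ 3 * ind2 M b k := by
  have hM : 0 < M := Nat.pos_of_ne_zero (NeZero.ne M)
  rw [veD_of_ne M b (mul_ne_zero hM.ne' hm)]
  congr 1
  symm
  have hsub : m.divisors ⊆ (M * m).divisors := Nat.divisors_subset_of_dvd (mul_ne_zero hM.ne' hm)
    (Dvd.intro_left _ rfl)
  rw [← Finset.sum_subset hsub]
  · refine Finset.sum_congr rfl fun k hk => ?_
    rw [if_pos]
    obtain ⟨j, rfl⟩ := Nat.dvd_of_mem_divisors hk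
    have hk0 : 0 < k := Nat.pos_of_ne_zero (by rintro rfl; simp at hm)
    rw [show M * (k * j) = k * (M * j) by ring, Nat.mul_div_cancel_left _ hk0]
    simp
  · intro k hk hk'
    rw [if_neg, mul_zero]
    intro h
    rw [ZMod.natCast_eq_zero_iff] at h
    apply hk'
    rw [Nat.mem_divisors]
    refine ⟨?_, hm⟩
    obtain ⟨j, hj⟩ := h
    have hkd := Nat.dvd_of_mem_divisors hk
    have h2 : M * m = k * (M * j) := by rw [← hj, Nat.mul_div_cancel' hkd]
    refine ⟨j, Nat.eq_of_mul_eq_mul_left hM ?_⟩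
    rw [h2]; ring

theorem veD_eq_coeff
    (hC : ∀ b : ZMod M, ∑ a : ZMod M, zpw M (-(a * b)) * qeC M ![0, a] 0 =
      (M : ℂ) ^ 4 / 120 - (b.val : ℂ) ^ 2 * ((M : ℂ) - b.val) ^ 2 / 4)
    (b : ZMod M) (m : ℕ) : veD M b (M * m) = (((eisZ M b).coeff m : ℤ) : ℂ) := by
  rw [eisZ, PowerSeries.coeff_mk]
  by_cases hm : m = 0
  · subst hm
    rw [mul_zero, if_pos rfl, veD, hC]
    push_cast
    ring
  · rw [if_neg hm, veD_mul M b hm]
    push_cast
    rfl

theorem hasSum_VE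
    (hQ : ∀ (v : Fin 2 → ZMod M) (τ : ℍ),
      HasSum (fun n : ℕ => qeC M v n * Complex.exp (2 * π * Complex.I * τ / M) ^ n) (QE M v τ))
    (hC : ∀ b : ZMod M, ∑ a : ZMod M, zpw M (-(a * b)) * qeC M ![0, a] 0 =
      (M : ℂ) ^ 4 / 120 - (b.val : ℂ) ^ 2 * ((M : ℂ) - b.val) ^ 2 / 4)
    (b : ZMod M) (τ : ℍ) :
    HasSum (fun m : ℕ => (((eisZ M b).coeff m : ℤ) : ℂ) • 𝕢 (1 : ℝ) (τ : ℂ) ^ m) (VE M b τ) := by
  have hM : 0 < M := Nat.pos_of_ne_zero (NeZero.ne M)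
  have hMC : (M : ℂ) ≠ 0 := Nat.cast_ne_zero.2 hM.ne'
  have h1 := hasSum_veD M hQ b τ
  have hinj : Function.Injective (fun m : ℕ => M * m) := fun a c h => Nat.eq_of_mul_eq_mul_left hM h
  have h2 := (hinj.hasSum_iff (f := fun n : ℕ => veD M b n *
    Complex.exp (2 * π * Complex.I * τ / M) ^ n) (a := VE M b τ) (by
      intro n hn
      rw [veD_of_not_dvd M b (fun ⟨j, hj⟩ => hn ⟨j, hj.symm⟩), zero_mul])).2 h1
  have e : (fun m : ℕ => (((eisZ M b).coeff m : ℤ) : ℂ) • 𝕢 (1 : ℝ) (τ : ℂ) ^ m) =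
      (fun n : ℕ => veD M b n * Complex.exp (2 * π * Complex.I * τ / M) ^ n) ∘
        (fun m : ℕ => M * m) := by
    funext m
    simp only [Function.comp_apply, smul_eq_mul]
    rw [veD_eq_coeff M hC, pow_mul, ← Complex.exp_nat_mul, Function.Periodic.qParam]
    congr 3
    push_cast
    field_simp
  rw [e]
  exact h2

theorem isQ_VE
    (hQ : ∀ (v : Fin 2 → ZMod M) (τ : ℍ),
      HasSum (fun n : ℕ => qeC M v n * Complex.exp (2 * π * Complex.I * τ / M) ^ n) (QE M v τ))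
    (hC : ∀ b : ZMod M, ∑ a : ZMod M, zpw M (-(a * b)) * qeC M ![0, a] 0 =
      (M : ℂ) ^ 4 / 120 - (b.val : ℂ) ^ 2 * ((M : ℂ) - b.val) ^ 2 / 4)
    (b : ZMod M) : IsQ (VE M b) :=
  Z.isQ_of_hasSum (hasSum_VE M hQ hC b)

theorem qExpansion_VE
    (hQ : ∀ (v : Fin 2 → ZMod M) (τ : ℍ),
      HasSum (fun n : ℕ => qeC M v n * Complex.exp (2 * π * Complex.I * τ / M) ^ n) (QE M v τ))
    (hC : ∀ b : ZMod M, ∑ a : ZMod M, zpw M (-(a * b)) * qeC M ![0, a] 0 =
      (M : ℂ) ^ 4 / 120 - (b.val : ℂ) ^ 2 * ((M : ℂ) - b.val) ^ 2 / 4)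
    (b : ZMod M) : qExpansion 1 (VE M b) = (eisZ M b).map (Int.castRingHom ℂ) := by
  ext n
  rw [PowerSeries.coeff_map]
  exact Z.coeffFun_of_hasSum (hasSum_VE M hQ hC b) n

end EisVE

end Fermat.Agent.S48.M
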