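import Fermat.Agent.S48.M.Eis.Defs

/-!
# S48 / M / Eis / Zpw : API for `zpw M t = ζ_M ^ t`  (helper20)
-/

set_option autoImplicit false

open scoped Real

noncomputable section

namespace Fermat.Agent.S48.M

variable (M : ℕ) [NeZero M]

theorem zpw_eq_stdAddChar (t : ZMod M) : zpw M t = ZMod.stdAddChar t := by
  have h := ZMod.stdAddChar_coe (N := M) ((t.val : ℕ) : ℤ)
  rw [Int.cast_natCast, ZMod.natCast_zmod_val] at h
  rw [h, zpw, ← Complex.exp_nat_mul]
  congr 1
  push_cast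
  ring

theorem zpw_add (a b : ZMod M) : zpw M (a + b) = zpw M a * zpw M b := by
  simp only [zpw_eq_stdAddChar, AddChar.map_add_eq_mul]

theorem zpw_zero : zpw M 0 = 1 := by
  simp only [zpw_eq_stdAddChar, AddChar.map_zero_eq_one]

theorem zpw_intCast (j : ℤ) : zpw M (j : ZMod M) = Complex.exp (2 * π * Complex.I * j / M) := by
  rw [zpw_eq_stdAddChar, ZMod.stdAddChar_coe]

theorem norm_zpw (a : ZMod M) : ‖zpw M a‖ = 1 := by
  rw [zpw_eq_stdAddChar]
  exact AddChar.norm_apply _ _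

theorem zpw_pow (a : ZMod M) (n : ℕ) : zpw M a ^ n = zpw M (n * a) := by
  simp only [zpw_eq_stdAddChar]
  rw [← nsmul_eq_mul, AddChar.map_nsmul_eq_pow]

theorem zpw_pow_self (a : ZMod M) : zpw M a ^ M = 1 := by
  rw [zpw_pow, ZMod.natCast_self, zero_mul, zpw_zero]

theorem zpw_eq_one_iff (a : ZMod M) : zpw M a = 1 ↔ a = 0 := by
  rw [← zpw_zero M, zpw_eq_stdAddChar, zpw_eq_stdAddChar, ZMod.injective_stdAddChar.eq_iff]

/-- orthogonality -/
theorem sum_zpw_mul (a : ZMod M) : ∑ b : ZMod M, zpw M (a * b) = if a = 0 then (M : ℂ) else 0 := by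
  simp only [zpw_eq_stdAddChar]
  have h := AddChar.sum_mulShift a (ZMod.isPrimitive_stdAddChar M)
  rw [ZMod.card] at h
  simp only [mul_comm a]
  exact_mod_cast h

theorem isIntegral_zpw (a : ZMod M) : IsIntegral ℤ (zpw M a) :=
  IsIntegral.of_pow (Nat.pos_of_ne_zero (NeZero.ne M)) (by rw [zpw_pow_self]; exact isIntegral_one)

end Fermat.Agent.S48.M
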